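/-
M59 / box [C] Mazur at `q = 2`, HESSE PORT, cluster A-RES (helper28).  Prefix `m59h2_`.

Twin of `TW/Easy/Res/OrdSS.lean` (`twfr_ord_at`): (E2-ord) OVER A NUMBER FIELD OF DEFINITION, TWO
PRIMES, with the residue prime `p` only assumed `≠ 3` (in use `p = 2`): the number-field step is
`m59h2_twfr_nf` (Hesse cover), so the field of definition has to contain `ζ_{3M}`.
-/
import Mathlib
import Fermat.Agent.S44.Res.OrdSS
import Fermat.Agent.M59.Hesse2.Res.HesOrdNF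

set_option autoImplicit false
set_option linter.style.haveILetI false
set_option linter.unusedSectionVars false
set_option linter.unusedVariables false

noncomputable section

namespace Fermat.Agent.M59

open Fermat.Agent.SS Fermat.Agent.JT3 Fermat.Agent.S35 Fermat.Agent.S24 IntermediateField
  ModularCurve IsLocalRing AlgebraicCurve Polynomial Fermat.Agent.S44 Fermat.Agent.TW

local notation "Qb" => AlgebraicClosure ℚ

section At

variable (A : ValuationSubring Qb) {p : ℕ} [hp : Fact p.Prime] (hA : A.LiesOverPrime p)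
  (M : ℕ) [NeZero M] [NeZero p] [NeZero (M * p)] (hpM : ¬ p ∣ M)

set_option synthInstance.maxHeartbeats 400000 in
set_option maxHeartbeats 6400000 in
/-- **(E2-ord) over a number field of definition**, residue prime `p ≠ 3`, exponent `m` coprime
to `6` (Hesse cover). -/
theorem m59h2_twfr_ord_at (hp3 : ¬ 3 ∣ p) {m : ℕ} (hm0 : m ≠ 0) (hm6 : Nat.Coprime m 6)
    (L1 : IntermediateField ℚ Qb) [NumberField ↥L1]
    (ζ : ↥L1) (hζ : IsPrimitiveRoot ζ (3 * M))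
    (Q : Place (ResidueField ↥A) ↥(modularFunctionFieldFullC (ResidueField ↥A) M))
    (hns : jcr_j (k := ResidueField ↥A) M ∉ Q.toValuationSubring ∨
      ∃ (b1 : ↥(lg_F ↥L1 (M * p)))
        (hb : ssm_al_iotaF ↥L1 (M * p) b1 ∈ s44pg_W A hA hp.out.ne_zero (M * p))
        (hW : gq_IsBdd ↥(A.comap (algebraMap ↥L1 Qb)) ↥L1
          ((ssm_al_W ↥L1 M p hp.out hpM b1 : ↥(lg_F ↥L1 (M * p))) : LaurentSeries ↥L1)),
        IsIntegral (Algebra.adjoin ↥(A.comap (algebraMap ↥L1 Qb))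
          ({rdn_gf_j (L := ↥L1) (M * p)} : Set ↥(lg_F ↥L1 (M * p)))) b1 ∧
        gq_res ↥(A.comap (algebraMap ↥L1 Qb)) ↥L1 ⟨_, hW⟩ = 0 ∧
        s44rd_red A hA M hpM ⟨ssm_al_iotaF ↥L1 (M * p) b1, hb⟩ ∉
          Q.toValuationSubring.nonunits)
    (f1 : ↥(lg_F ↥L1 (M * p)))
    (hf : ssm_al_iotaF ↥L1 (M * p) f1 ∈ s44pg_W A hA hp.out.ne_zero (M * p))
    (hfi : (ssm_al_iotaF ↥L1 (M * p) f1)⁻¹ ∈ s44pg_W A hA hp.out.ne_zero (M * p))
    (hord : ∀ v : Place ↥L1 ↥(lg_F ↥L1 (M * p)), (m : ℤ) ∣ v.ord f1) :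
    (m : ℤ) ∣ Q.ord (s44rd_red A hA M hpM ⟨ssm_al_iotaF ↥L1 (M * p) f1, hf⟩) := by
  have hpp := hp.out
  set O : ValuationSubring ↥L1 := A.comap (algebraMap ↥L1 Qb) with hO
  haveI hdvr : IsDiscreteValuationRing ↥O := dsc_isDVR_comap_numberField A p hA hpp.ne_zero ↥L1
  obtain ⟨π, hπ⟩ := IsDiscreteValuationRing.exists_irreducible ↥O
  have hmem := lg_natCast_mem_maximalIdeal A hA ↥L1
  haveI : CharP (ResidueField ↥O) p := ss_nfl_charP_residue hmem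
  have h3L : (3 : ↥L1) ≠ 0 := three_ne_zero
  have h3O : IsUnit (3 : ↥O) := ssm_fhn_isUnit_three ↥L1 O p hp3
  haveI := ssm_go_isScalarTower O (lg_F ↥L1 (M * p))
  set W1 := s44ro_W1 ↥L1 O hπ M p with hW1
  set Winf := s44pg_W A hA hpp.ne_zero (M * p) with hWinf
  set ιF := ssm_al_iotaF ↥L1 (M * p) with hιF
  have hW1iff : ∀ x : ↥(lg_F ↥L1 (M * p)), x ∈ W1 ↔ gq_IsBdd ↥O ↥L1 (x : LaurentSeries ↥L1) :=
    fun x => gq_mem_valSubOf π hπ.ne_zero hπ.maximalIdeal_eq (lg_F ↥L1 (M * p))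
      (rdn_gf_le_quotField O (M * p)) x
  have hWinfiff : ∀ x : Fbar (M * p), x ∈ Winf ↔ gq_IsBdd ↥A Qb (x : LaurentSeries Qb) :=
    fun x => s44pg_mem_iff A hA hpp.ne_zero (M * p) x
  -- boundedness and residues: `O`-level versus `A`-level
  have hbdd : ∀ x : ↥(lg_F ↥L1 (M * p)),
      gq_IsBdd ↥A Qb ((ιF x : Fbar (M * p)) : LaurentSeries Qb) ↔
        gq_IsBdd ↥O ↥L1 (x : LaurentSeries ↥L1) := fun x =>
    ssm_gb_isBdd_iff (algebraMap ↥L1 Qb) O A (fun _ => Iff.rfl) π hπ.ne_zero hπ.maximalIdeal_eq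
      (rdn_gf_le_quotField O (M * p) x.2)
  have hres0 : ∀ (x : ↥(lg_F ↥L1 (M * p))) (h1 : gq_IsBdd ↥O ↥L1 (x : LaurentSeries ↥L1))
      (h2 : gq_IsBdd ↥A Qb ((ιF x : Fbar (M * p)) : LaurentSeries Qb)),
      gq_res ↥A Qb ⟨((ιF x : Fbar (M * p)) : LaurentSeries Qb), h2⟩ = 0 ↔
        gq_res ↥O ↥L1 ⟨(x : LaurentSeries ↥L1), h1⟩ = 0 := fun x h1 h2 =>
    ssm_gb_res_eq_zero_iff (algebraMap ↥L1 Qb) O A (fun _ => Iff.rfl) ⟨_, h1⟩
  -- the reduction map of `W1`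
  let ιW : ↥W1 →+* ↥Winf :=
    { toFun := fun x => ⟨ιF (x : ↥(lg_F ↥L1 (M * p))),
        (hWinfiff _).2 ((hbdd _).2 ((hW1iff _).1 x.2))⟩
      map_one' := Subtype.ext (map_one ιF)
      map_mul' := fun a b => Subtype.ext (map_mul ιF _ _)
      map_zero' := Subtype.ext (map_zero ιF)
      map_add' := fun a b => Subtype.ext (map_add ιF _ _) }
  let red1 : ↥W1 →+* ↥(modularFunctionFieldFullC (ResidueField ↥A) M) :=
    (s44rd_red A hA M hpM).comp ιW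
  have hker : ∀ z : ↥W1, (z : ↥(lg_F ↥L1 (M * p))) ∈ W1.nonunits → red1 z = 0 := by
    intro z hz
    have hz2 := (hW1iff _).1 z.2
    have h1 := (gq_mem_nonunits_iff_res π hπ.ne_zero hπ.maximalIdeal_eq (lg_F ↥L1 (M * p))
      (rdn_gf_le_quotField O (M * p)) _ hz2).1 hz
    apply Subtype.ext
    show gq_res ↥A Qb ⟨((ιF (z : ↥(lg_F ↥L1 (M * p))) : Fbar (M * p)) : LaurentSeries Qb), _⟩ = 0
    exact (hres0 _ hz2 _).2 h1
  -- the residue fields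
  set κ0 : ResidueField ↥O →+* ResidueField ↥A :=
    ssm_gb_kappa (algebraMap ↥L1 Qb) O A (fun _ => Iff.rfl) with hκ0
  letI : Algebra (ResidueField ↥O) (ResidueField ↥A) := κ0.toAlgebra
  letI : Algebra (ResidueField ↥O) ↥(modularFunctionFieldFullC (ResidueField ↥A) M) :=
    ((algebraMap (ResidueField ↥A) ↥(modularFunctionFieldFullC (ResidueField ↥A) M)).comp
      κ0).toAlgebra
  haveI : IsScalarTower (ResidueField ↥O) (ResidueField ↥A)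
      ↥(modularFunctionFieldFullC (ResidueField ↥A) M) :=
    IsScalarTower.of_algebraMap_eq fun _ => rfl
  haveI : Algebra.IsAlgebraic (ResidueField ↥O) (ResidueField ↥A) :=
    ⟨fun x => (s44ro_kA_isIntegral A hA x).isAlgebraic⟩
  obtain ⟨ρ⟩ := lgv_exists_rhoO (L := Qb) (O := ↥A) (IsFractionRing.injective ↥A Qb) p
    (s44rg_natCast_mem A hA)
  haveI : Algebra.IsAlgebraic (ResidueField ↥A)⟮jcr_j (k := ResidueField ↥A) M⟯
      ↥(modularFunctionFieldFullC (ResidueField ↥A) M) :=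
    jcr_isAlgebraic M hpM ((residue ↥A).comp ρ)
  -- constants
  have hconst : ∀ a : ↥O, ιF (algebraMap ↥O ↥(lg_F ↥L1 (M * p)) a) =
      algebraMap Qb (Fbar (M * p)) (algebraMap ↥L1 Qb (a : ↥L1)) := fun a =>
    ssm_al_iotaF_algebraMap ↥L1 (M * p) (a : ↥L1)
  have hA1 : ∀ a : ↥O, algebraMap ↥O ↥(lg_F ↥L1 (M * p)) a ∈ W1 := by
    intro a
    refine (hW1iff _).2 ((hbdd _).1 ?_)
    rw [hconst]
    exact (hWinfiff _).1 ((s44pg_const A hA hpp.ne_zero (M * p) _).2 a.2)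
  have hrA : ∀ (a : ↥O) (h : algebraMap ↥O ↥(lg_F ↥L1 (M * p)) a ∈ W1),
      red1 ⟨algebraMap ↥O ↥(lg_F ↥L1 (M * p)) a, h⟩ =
        algebraMap (ResidueField ↥O) ↥(modularFunctionFieldFullC (ResidueField ↥A) M)
          (residue ↥O a) := by
    intro a h
    have h3 := s44rd_red_const A hA M hpM ⟨algebraMap ↥L1 Qb (a : ↥L1), a.2⟩
    have h4 : red1 ⟨algebraMap ↥O ↥(lg_F ↥L1 (M * p)) a, h⟩ =
        s44rd_red A hA M hpM ⟨algebraMap Qb (Fbar (M * p)) (algebraMap ↥L1 Qb (a : ↥L1)),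
          (s44pg_const A hA hpp.ne_zero (M * p) _).2 a.2⟩ := by
      show s44rd_red A hA M hpM _ = _
      congr 1
      exact Subtype.ext (hconst a)
    rw [h4, h3]
    show _ = algebraMap (ResidueField ↥A) _ (κ0 (residue ↥O a))
    congr 1
  set WQ := Q.toValuationSubring with hWQ
  obtain ⟨hA0, halg0⟩ := s44ro_comp_alg (A0 := ↥O) (k0 := ResidueField ↥O)
    (k := ResidueField ↥A) W1 hA1 (residue ↥O) residue_surjective red1 hker hrA
    (jcr_j (k := ResidueField ↥A) M) Q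
  set 𝒱0 := tori_comp W1 red1 hker WQ with h𝒱0def
  have h𝒱0 : 𝒱0 ≤ W1 := tori_comp_le W1 red1 hker WQ
  -- the reduction of `j`
  have hredj : ∀ h : s44ro_jF ↥L1 (M * p) ∈ W1,
      red1 ⟨s44ro_jF ↥L1 (M * p), h⟩ = jcr_j (k := ResidueField ↥A) M := by
    intro h
    apply Subtype.ext
    show gq_res ↥A Qb ⟨((ιF (s44ro_jF ↥L1 (M * p)) : Fbar (M * p)) : LaurentSeries Qb), _⟩ =
      jqModC (ResidueField ↥A)
    have e : ((ιF (s44ro_jF ↥L1 (M * p)) : Fbar (M * p)) : LaurentSeries Qb) =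
        qExpand Qb 1 (jqModC Qb) := by
      rw [qExpand_one_apply]
      show coeffMap (algebraMap ↥L1 Qb) (jqModC ↥L1) = jqModC Qb
      exact coeffMap_jqModC _
    exact (rdn_res_congr _ (s44rd_isBdd_gen A 1) e).trans
      (by rw [s44rd_res_gen A 1, qExpand_one_apply])
  -- the non-supersingularity hypothesis at number-field level
  have hns' : s44ro_jF ↥L1 (M * p) ∉ 𝒱0 ∨ ∃ b0 : ↥(lg_F ↥L1 (M * p)),
      (∃ P : Polynomial (Polynomial ↥O), P.Monic ∧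
        eval₂ (eval₂RingHom (algebraMap ↥O ↥(lg_F ↥L1 (M * p))) (s44ro_jF ↥L1 (M * p))) b0 P = 0) ∧
      rdn_gf_W ↥L1 M p hpM b0 ∈ (s44ro_W1 ↥L1 O hπ M p).nonunits ∧ b0 ∉ 𝒱0.nonunits := by
    rcases hns with hcusp | ⟨b1, hb1W, hWb, hint, hWres, hb1Q⟩
    · left
      rintro ⟨hj1, hj2⟩
      rw [hredj hj1] at hj2
      exact hcusp hj2
    · right
      refine ⟨b1, s44ro_exists_poly _ _ hint, ?_, ?_⟩
      · -- `W b1 ∈ 𝔪(W1)`
        exact (gq_mem_nonunits_iff_res π hπ.ne_zero hπ.maximalIdeal_eq (lg_F ↥L1 (M * p))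
          (rdn_gf_le_quotField O (M * p)) _ hWb).2 hWres
      · intro hnu
        obtain ⟨h', hr'⟩ := (tori_comp_mem_nonunits_iff W1 red1 hker WQ).1 hnu
        exact hb1Q hr'
  -- the trivial case
  rcases eq_or_ne f1 0 with rfl | hf10
  · have h0 : (⟨ιF 0, hf⟩ : ↥Winf) = 0 := Subtype.ext (map_zero ιF)
    rw [h0, map_zero]
    simp
  -- `f1` is a unit of `W1`
  have hb : f1 ∈ W1 := (hW1iff f1).2 ((hbdd f1).1 ((hWinfiff _).1 hf))
  have hbi : f1⁻¹ ∈ W1 := by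
    refine (hW1iff f1⁻¹).2 ((hbdd f1⁻¹).1 ((hWinfiff _).1 ?_))
    rw [map_inv₀]
    exact hfi
  obtain ⟨h, hh0, hu1, hu2⟩ := m59h2_twfr_nf ↥L1 h3L O h3O hπ M p hp3 hpM ζ hζ 𝒱0 h𝒱0 hA0 halg0 hns' hm0 hm6
    hf10 hord hb hbi
  -- conclusion
  set u := f1 / h ^ m with hu
  obtain ⟨huW, hunu⟩ := tori_comp_unit W1 red1 hker WQ hu1 hu2
  have hu0 : u ≠ 0 := ssm_tp_ne_zero 𝒱0 hu2
  have hui : u⁻¹ ∈ W1 := h𝒱0 (ssm_tp_inv_mem 𝒱0 hu2)
  have hhp : h ^ m = f1 * u⁻¹ := by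
    rw [hu, inv_div, mul_div_assoc', mul_div_cancel_left₀ _ hf10]
  have hhW : h ∈ W1 := by
    refine s44ro_mem_of_pow_mem W1 hm0 ?_
    rw [hhp]
    exact W1.mul_mem _ _ hb hui
  have hhiW : h⁻¹ ∈ W1 := by
    refine s44ro_mem_of_pow_mem W1 hm0 ?_
    rw [inv_pow, hhp, mul_inv, inv_inv]
    exact W1.mul_mem _ _ hbi hu1.1
  have hmul : (⟨f1, hb⟩ : ↥W1) = ⟨u, hu1.1⟩ * ⟨h, hhW⟩ ^ m := by
    apply Subtype.ext
    show f1 = u * h ^ m
    rw [hu, div_mul_cancel₀ _ (pow_ne_zero _ hh0)]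
  have hred : s44rd_red A hA M hpM ⟨ιF f1, hf⟩ = red1 ⟨u, hu1.1⟩ * red1 ⟨h, hhW⟩ ^ m := by
    rw [← map_pow, ← map_mul, ← hmul]
    rfl
  have hrh0 : red1 ⟨h, hhW⟩ ≠ 0 := by
    have h1 : red1 ⟨h, hhW⟩ * red1 ⟨h⁻¹, hhiW⟩ = 1 := by
      rw [← map_mul]
      have : (⟨h, hhW⟩ * ⟨h⁻¹, hhiW⟩ : ↥W1) = 1 := Subtype.ext (mul_inv_cancel₀ hh0)
      rw [this, map_one]
    exact left_ne_zero_of_mul_eq_one h1
  have hru0 : red1 ⟨u, hu1.1⟩ ≠ 0 := ssm_tp_ne_zero WQ hunu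
  rw [hred, Q.ord_mul hru0 (pow_ne_zero m hrh0), tori_sfd_ord_unit Q huW hunu, zero_add,
    ← zpow_natCast, Q.ord_zpow]
  exact dvd_mul_right _ _

end At

end Fermat.Agent.M59
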