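/-
M59 / box [C] Mazur at `q = 2`, HESSE PORT, cluster A-RES (helper28).  Prefix `m59h2_`.

Twin of the part of `S44/Res/LegFF.lean` used by `twf_mazur`: the function-field facts of the Hesse
cover `hs_E k h3 M = φ(FF_M)(μ)`, `φ = (q ↦ q³)`, over ANY field `k` with `3 ≠ 0` (characteristic-free
copies of `hsf_E_eq_adjoin`, `hsf_modEq_twist`, `hsf_hesseE`, `hsf_j3E_mem`, `hsf_finite`, which are
stated with `[CharZero L]` on main).

* `m59h2_s44rl_E_eq_adjoin`, `m59h2_s44rl_modEq_twist`, `m59h2_s44rl_legendreE`,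
  `m59h2_s44rl_j2E_mem`, `m59h2_s44rl_j2E_transcendental`;
* `m59h2_s44rl_finite_lam` : `hs_E k h3 M` is finite over `k(μ)` (`ℓ ∤ M` any prime with a ring
  hom `ℤ_(ℓ) → k`);
* `m59h2_s44rl_finite_x` : the same over `k(μ - 1)` (the "Option M" coordinate).
-/
import Mathlib
import Fermat.Agent.JT3.Inst.HesseFunFieldFacts
import Fermat.Agent.JT3.Inst.HesseKey0

set_option autoImplicit false
set_option linter.unusedSectionVars false
set_option linter.style.haveILetI false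

namespace Fermat.Agent.M59

open ModularCurve AlgebraicCurve IntermediateField Polynomial Fermat.Agent.JT3 Fermat.Agent.S24
  Fermat.Agent.S28

section Copies

variable (k : Type*) [Field k] (h3 : (3 : k) ≠ 0) (M : ℕ) [NeZero M]

theorem m59h2_s44rl_E_eq_adjoin :
    hs_E k h3 M = IntermediateField.adjoin k (hsf_gens k h3 M) := by
  rw [hsf_gens, IntermediateField.adjoin_union, ← IntermediateField.adjoin_map]
  rfl

theorem m59h2_s44rl_modEq_twist (d ℓ : ℕ) [NeZero d] [Fact ℓ.Prime] (hℓd : ¬ ℓ ∣ d)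
    (ρ : ↥(GaloisRep.ratLocalizedAt ℓ) →+* k) :
    ∃ Φ : Polynomial (Polynomial ↥(GaloisRep.ratLocalizedAt ℓ)), Φ.Monic ∧
      Φ.eval₂ (Polynomial.eval₂RingHom ((HahnSeries.C : k →+* LaurentSeries k).comp ρ)
        (hs_j3 k)) (hs_phi k (qExpand k d (jqModC k))) = 0 := by
  obtain ⟨Φ, hm, h0⟩ := jcr_modEq d ℓ hℓd ρ
  refine ⟨Φ, hm, ?_⟩
  have h1 := Polynomial.hom_eval₂ Φ
    (Polynomial.eval₂RingHom ((HahnSeries.C : k →+* LaurentSeries k).comp ρ) (jqModC k))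
    (hs_phi k : LaurentSeries k →+* LaurentSeries k) (qExpand k d (jqModC k))
  rw [h0, map_zero] at h1
  have h2 : (hs_phi k : LaurentSeries k →+* LaurentSeries k).comp
      (Polynomial.eval₂RingHom ((HahnSeries.C : k →+* LaurentSeries k).comp ρ) (jqModC k))
      = Polynomial.eval₂RingHom ((HahnSeries.C : k →+* LaurentSeries k).comp ρ) (hs_j3 k) := by
    refine Polynomial.ringHom_ext (fun r => ?_) ?_
    · simp only [RingHom.comp_apply, Polynomial.coe_eval₂RingHom, Polynomial.eval₂_C]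
      rw [HahnSeries.C_apply, ← algebraMap_laurentSeries_eq_single]
      exact (hs_phi k).commutes _
    · simp only [RingHom.comp_apply, Polynomial.coe_eval₂RingHom, Polynomial.eval₂_X]
      rfl
  rw [h2] at h1
  exact h1.symm

/-- the Hesse equation in `E` (twin of `s44rl_legendreE`). -/
theorem m59h2_s44rl_legendreE :
    27 * (hs_muE h3 M : hs_E k h3 M) ^ 3 * ((hs_muE h3 M : hs_E k h3 M) ^ 3 + 8) ^ 3
      = hsf_j3E k h3 M * ((hs_muE h3 M : hs_E k h3 M) ^ 3 - 1) ^ 3 :=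
  Subtype.ext (hs_hesse' k h3)

theorem m59h2_s44rl_j2E_mem : hsf_j3E k h3 M ∈ k⟮(hs_muE h3 M : hs_E k h3 M)⟯ := by
  have h1 : (hs_muE h3 M : hs_E k h3 M) ^ 3 - 1 ≠ 0 := by
    intro h
    apply hs_mu_cube_ne_one k h3
    have := congrArg (fun z : hs_E k h3 M => (z : LaurentSeries k)) (sub_eq_zero.1 h)
    exact this
  have hden : ((hs_muE h3 M : hs_E k h3 M) ^ 3 - 1) ^ 3 ≠ 0 := pow_ne_zero _ h1
  have hj : hsf_j3E k h3 M =
      27 * (hs_muE h3 M : hs_E k h3 M) ^ 3 * ((hs_muE h3 M : hs_E k h3 M) ^ 3 + 8) ^ 3 /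
      ((hs_muE h3 M : hs_E k h3 M) ^ 3 - 1) ^ 3 := by
    rw [eq_div_iff hden, m59h2_s44rl_legendreE]
  rw [hj]
  have hmem := mem_adjoin_simple_self k (hs_muE h3 M : hs_E k h3 M)
  exact div_mem (mul_mem (mul_mem (ofNat_mem _ 27) (pow_mem hmem 3))
    (pow_mem (add_mem (pow_mem hmem 3) (ofNat_mem _ 8)) 3))
    (pow_mem (sub_mem (pow_mem hmem 3) (one_mem _)) 3)

/-- `j(q³)` is transcendental. -/
theorem m59h2_s44rl_j2E_transcendental : Transcendental k (hsf_j3E k h3 M) := by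
  intro h
  have h' : IsAlgebraic k (hs_j3 k) := IntermediateField.isAlgebraic_iff.1 h
  revert h'
  refine lgf_transcendental_of_coeff (n := -3) (by norm_num) ?_
  have h := qExpand_coeff_mul (R := k) (N := 3) (jqModC k) (-1)
  have h2 : ((3 : ℕ) : ℤ) * (-1) = -3 := by norm_num
  rw [h2] at h
  rw [hs_j3, h, coeff_jqModC_neg_one]
  exact one_ne_zero

/-- **`E` is finite over `k(μ)`** (`ℓ ∤ M` any prime with a ring hom `ℤ_(ℓ) → k`). -/
theorem m59h2_s44rl_finite_lam {ℓ : ℕ} [Fact ℓ.Prime] (hℓM : ¬ ℓ ∣ M)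
    (ρ : ↥(GaloisRep.ratLocalizedAt ℓ) →+* k) :
    FiniteDimensional k⟮(hs_muE h3 M : hs_E k h3 M)⟯ (hs_E k h3 M) := by
  refine lgf_finite_of_gens (hs_E k h3 M) (hsf_gens k h3 M)
    (((jcr_finite_gens (k := k) M).image _).union (Set.finite_singleton _))
    (m59h2_s44rl_E_eq_adjoin k h3 M) (hs_muE h3 M) ?_
  rintro y (⟨_, ⟨d, hd, hdM, rfl⟩, hy⟩ | hy)
  · haveI := hd
    have hℓd : ¬ ℓ ∣ d := fun h => hℓM (h.trans hdM)
    obtain ⟨Φ, hm, h0⟩ := m59h2_s44rl_modEq_twist k d ℓ hℓd ρ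
    refine (lgf_isIntegral_of_modEq (hs_E k h3 M).val ρ k⟮(hs_muE h3 M : hs_E k h3 M)⟯
      (x := hsf_j3E k h3 M) (y := y) (m59h2_s44rl_j2E_mem k h3 M) Φ hm ?_).isAlgebraic
    have hy' : (hs_E k h3 M).val y = hs_phi k (qExpand k d (jqModC k)) := hy.symm
    rw [hy']
    exact h0
  · have hy' : y = hs_muE h3 M := Subtype.ext hy
    rw [hy']
    exact isAlgebraic_algebraMap
      (⟨hs_muE h3 M, mem_adjoin_simple_self k _⟩ : k⟮(hs_muE h3 M : hs_E k h3 M)⟯)

/-- `k(μ - 1) = k(μ)` inside `E`. -/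
theorem m59h2_adjoin_x_eq :
    k⟮(hs_muE h3 M - 1 : hs_E k h3 M)⟯ = k⟮(hs_muE h3 M : hs_E k h3 M)⟯ := by
  apply le_antisymm
  · rw [IntermediateField.adjoin_simple_le_iff]
    exact sub_mem (mem_adjoin_simple_self k _) (one_mem _)
  · rw [IntermediateField.adjoin_simple_le_iff]
    have h1 : (hs_muE h3 M - 1 : hs_E k h3 M) ∈ k⟮(hs_muE h3 M - 1 : hs_E k h3 M)⟯ :=
      mem_adjoin_simple_self k _
    have h2 := add_mem h1 (one_mem k⟮(hs_muE h3 M - 1 : hs_E k h3 M)⟯)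
    rwa [sub_add_cancel] at h2

end Copies

end Fermat.Agent.M59
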