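/-
M59 / box [C] Mazur at `q = 2`, HESSE PORT, cluster A-RES (helper28).  Prefix `m59h2_`.

Twin of `S44/Res/OrdNFAux.lean` + the two Gauss lemmas of `S44/Res/OrdNF.lean` + `s44rs_leg_pts2`
(`S44/Res/SmoothLeg.lean`) + `twfr_tower` (`TW/Easy/Res/Tower.lean`) for the HESSE cover
`E = hs_E L h3 N = φ(F_N)(μ)`, `φ = (q ↦ q³)`:

* `m59h2_s44ro_W_phi`        : `W_E ∘ φ = φ ∘ W_F` (from `ss2_dp_coe_WEH_phi`);
* `m59h2_s44ro_phi_jF`, `m59h2_s44ro_legendre_t` : `φ j = j(q³)` and the Hesse equation in `E`;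
* `m59h2_s44ro_tower_fields` : the tower `φ(F) ⊆ φ(F)(μ³) ⊆ E` of degrees `≤ 4` and `≤ 3`;
* `m59h2_s44ro_algebraic`    : `E` is algebraic over `φ(F)`;
* `m59h2_s44ro_phi_mem`, `m59h2_s44ro_phi_res` : `φ` respects the Gauss rings and their maximal ideals;
* `m59h2_s44rs_leg_pts2`     : the points at infinity of the `x⁻¹`-chart (`x = μ - 1`) are smooth, ANY
                               uniformiser (twin of `tori_sfdi_hes_pts2`);
* `m59h2_twfr_tower`         : value-group descent along the Hesse cover, exponent coprime to `6`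
                               (the degrees `1, 2, 3, 4` of the tower steps are prime to it).
-/
import Mathlib
import Fermat.Agent.S44.Res.OrdNFAux
import Fermat.Agent.TW.Easy.Res.ValGroup
import Fermat.Agent.SS2.DescPhi.NormCoverHes
import Fermat.Agent.S35.Toric.SFDInstHes
import Fermat.Agent.JT3.Inst.HesseKey0
import Fermat.Agent.M59.Hesse2.Res.HesFF

set_option autoImplicit false
set_option linter.style.haveILetI false
set_option linter.unusedSectionVars false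
set_option linter.unusedVariables false

noncomputable section

namespace Fermat.Agent.M59

open Fermat.Agent.SS Fermat.Agent.JT3 Fermat.Agent.S35 IntermediateField ModularCurve IsLocalRing
  AlgebraicCurve Polynomial Fermat.Agent.S44 Fermat.Agent.TW Fermat.Agent.SS2

section WPhi

variable (L : Type*) [Field L] [CharZero L] [Algebra L (AlgebraicClosure ℚ)] (h3 : (3 : L) ≠ 0)
  (N' q : ℕ) [NeZero N'] [NeZero q] [hq : Fact q.Prime] (hq3 : ¬ 3 ∣ q) (hqN' : ¬ q ∣ N')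

/-- **`W_E ∘ φ = φ ∘ W_F`** (series level), Hesse cover. -/
theorem m59h2_s44ro_W_phi (x : ↥(lg_F L (N' * q))) :
    ((ssm_alh_WE L h3 (ssm_fh_hF9 h3) N' q hq.out hq3 hqN'
        (hs_phiE h3 (N := N' * q) x) : ↥(hs_E L h3 (N' * q))) : LaurentSeries L) =
      hs_phi L ((ssm_al_W L N' q hq.out hqN' x : ↥(lg_F L (N' * q))) : LaurentSeries L) :=
  ss2_dp_coe_WEH_phi L h3 N' q hq3 hqN' x (hs_phi_mem_E L h3 (N' * q) x.2)

end WPhi

section Tower

variable (L : Type*) [Field L] (h3 : (3 : L) ≠ 0) (N : ℕ) [NeZero N]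

theorem m59h2_s44ro_phi_jF :
    ((hs_phiE h3 (N := N) (s44ro_jF L N) : ↥(hs_E L h3 N)) : LaurentSeries L) = hs_j3 L := by
  rw [hs_phiE_coe]
  rfl

/-- the Hesse equation in `E`, with `j(q³)` written as `φ j`. -/
theorem m59h2_s44ro_legendre_t :
    (27 : ↥(hs_E L h3 N)) * hs_muE h3 N ^ 3 * (hs_muE h3 N ^ 3 + 8) ^ 3 =
      hs_phiE h3 (N := N) (s44ro_jF L N) * (hs_muE h3 N ^ 3 - 1) ^ 3 := by
  have h := m59h2_s44rl_legendreE L h3 N
  have e : hsf_j3E L h3 N = hs_phiE h3 (N := N) (s44ro_jF L N) :=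
    Subtype.ext (m59h2_s44ro_phi_jF L h3 N).symm
  rw [← e]
  exact h

end Tower

section TowerDescent

variable (L : Type*) [Field L] [CharZero L] (h3 : (3 : L) ≠ 0) (N : ℕ) [NeZero N]

set_option maxHeartbeats 1600000 in
set_option synthInstance.maxHeartbeats 200000 in
/-- **the tower** `φ(F) ⊆ φ(F)(s) ⊆ E`, `s = μ³`, of degrees `≤ 4` and `≤ 3`. -/
theorem m59h2_s44ro_tower_fields :
    letI : Algebra ↥(lg_F L N) ↥(hs_E L h3 N) :=
      ((hs_phiE h3 (N := N) : ↥(lg_F L N) →ₐ[L] ↥(hs_E L h3 N)) :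
        ↥(lg_F L N) →+* ↥(hs_E L h3 N)).toAlgebra
    ∃ Kt : IntermediateField ↥(lg_F L N) ↥(hs_E L h3 N),
      FiniteDimensional ↥(lg_F L N) ↥Kt ∧ Module.finrank ↥(lg_F L N) ↥Kt ≤ 4 ∧
      FiniteDimensional ↥Kt ↥(hs_E L h3 N) ∧ Module.finrank ↥Kt ↥(hs_E L h3 N) ≤ 3 := by
  letI : Algebra ↥(lg_F L N) ↥(hs_E L h3 N) :=
    ((hs_phiE h3 (N := N) : ↥(lg_F L N) →ₐ[L] ↥(hs_E L h3 N)) :
      ↥(lg_F L N) →+* ↥(hs_E L h3 N)).toAlgebra
  have halg : ∀ z : ↥(lg_F L N), algebraMap ↥(lg_F L N) ↥(hs_E L h3 N) z =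
      hs_phiE h3 (N := N) z := fun _ => rfl
  set mu : ↥(hs_E L h3 N) := hs_muE h3 N with hmu
  set s : ↥(hs_E L h3 N) := mu ^ 3 with hs
  -- the quartic for `s` over `F`
  set P4 : Polynomial ↥(lg_F L N) :=
    C (27 : ↥(lg_F L N)) * X * (X + C 8) ^ 3 - C (s44ro_jF L N) * (X - C 1) ^ 3 with hP4
  have hP4root : aeval s P4 = 0 := by
    rw [hP4]
    simp only [map_sub, map_mul, map_pow, map_add, aeval_C, aeval_X, map_one, halg]
    have e := m59h2_s44ro_legendre_t L h3 N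
    have h27 : hs_phiE h3 (N := N) (27 : ↥(lg_F L N)) = 27 := map_ofNat _ 27
    have h8 : hs_phiE h3 (N := N) (8 : ↥(lg_F L N)) = 8 := map_ofNat _ 8
    rw [h27, h8, e, sub_self]
  have hP4ne : P4 ≠ 0 := by
    intro h0
    have h1 : P4.eval 1 = 27 * 9 ^ 3 := by
      rw [hP4]
      simp only [eval_sub, eval_mul, eval_pow, eval_add, eval_C, eval_X]
      norm_num
    rw [h0, eval_zero] at h1
    have : (27 * 9 ^ 3 : ↥(lg_F L N)) ≠ 0 := by norm_num
    exact this h1.symm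
  have hP4deg : P4.natDegree ≤ 4 := by
    rw [hP4]
    refine (natDegree_sub_le _ _).trans (max_le ?_ ?_)
    · refine (natDegree_mul_le).trans ?_
      have h1 : (C (27 : ↥(lg_F L N)) * X).natDegree ≤ 1 :=
        (natDegree_C_mul_le _ _).trans natDegree_X_le
      have h2 : ((X + C (8 : ↥(lg_F L N))) ^ 3).natDegree ≤ 3 := by
        refine (natDegree_pow_le).trans ?_
        have : (X + C (8 : ↥(lg_F L N))).natDegree ≤ 1 := (natDegree_X_add_C _).le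
        omega
      omega
    · refine (natDegree_C_mul_le _ _).trans ?_
      refine (natDegree_pow_le).trans ?_
      have : (X - C (1 : ↥(lg_F L N))).natDegree ≤ 1 := (natDegree_X_sub_C _).le
      omega
  have hsint : IsIntegral ↥(lg_F L N) s := IsAlgebraic.isIntegral ⟨P4, hP4ne, hP4root⟩
  have hsdeg : (minpoly ↥(lg_F L N) s).natDegree ≤ 4 :=
    (natDegree_le_natDegree (minpoly.degree_le_of_ne_zero _ _ hP4ne hP4root)).trans hP4deg
  -- the intermediate field `F(s)`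
  set Kt : IntermediateField ↥(lg_F L N) ↥(hs_E L h3 N) := (↥(lg_F L N))⟮s⟯ with hKt
  haveI hfd1 : FiniteDimensional ↥(lg_F L N) ↥Kt := IntermediateField.adjoin.finiteDimensional hsint
  have hfr1 : Module.finrank ↥(lg_F L N) ↥Kt ≤ 4 := by
    rw [IntermediateField.adjoin.finrank hsint]
    exact hsdeg
  -- the cubic for `μ` over `F(s)`
  set sK : ↥Kt := ⟨s, IntermediateField.mem_adjoin_simple_self _ s⟩ with hsK
  set P3 : Polynomial ↥Kt := X ^ 3 - C sK with hP3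
  have hP3root : aeval mu P3 = 0 := by
    rw [hP3]
    simp only [map_sub, map_pow, aeval_X, aeval_C]
    show mu ^ 3 - s = 0
    rw [hs]; ring
  have hP3m : P3.Monic := by
    rw [hP3]
    exact monic_X_pow_sub_C _ (by norm_num)
  have hP3deg : P3.natDegree ≤ 3 := by
    rw [hP3, natDegree_X_pow_sub_C]
  have hmuint : IsIntegral ↥Kt mu := ⟨P3, hP3m, hP3root⟩
  have hmudeg : (minpoly ↥Kt mu).natDegree ≤ 3 :=
    (natDegree_le_natDegree (minpoly.degree_le_of_ne_zero _ _ hP3m.ne_zero hP3root)).trans hP3deg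
  -- `F(s)(μ) = E`
  have htop : (↥Kt)⟮mu⟯ = (⊤ : IntermediateField ↥Kt ↥(hs_E L h3 N)) := by
    rw [eq_top_iff]
    intro z _
    set S : Subfield ↥(hs_E L h3 N) := ((↥Kt)⟮mu⟯).toSubfield with hS
    have hFS : ∀ w : ↥(lg_F L N), hs_phiE h3 (N := N) w ∈ S := by
      intro w
      have : hs_phiE h3 (N := N) w =
          algebraMap ↥Kt ↥(hs_E L h3 N) (algebraMap ↥(lg_F L N) ↥Kt w) := rfl
      rw [this]
      exact ((↥Kt)⟮mu⟯).algebraMap_mem _
    have hle : (hs_E L h3 N).toSubfield ≤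
        S.map ((hs_E L h3 N).val : ↥(hs_E L h3 N) →+* LaurentSeries L) := by
      have e0 : (hs_E L h3 N).toSubfield = (hs_F3 L N ⊔ hs_K L h3).toSubfield := rfl
      rw [e0, IntermediateField.sup_toSubfield, sup_le_iff]
      constructor
      · rintro w ⟨x0, hx0, rfl⟩
        exact ⟨hs_phiE h3 (N := N) ⟨x0, hx0⟩, hFS _, rfl⟩
      · rw [hs_K, IntermediateField.adjoin_toSubfield, Subfield.closure_le]
        rintro w (⟨c, rfl⟩ | hw)
        · refine ⟨hs_phiE h3 (N := N) (algebraMap L ↥(lg_F L N) c), hFS _, ?_⟩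
          rw [AlgHom.commutes]
          rfl
        · rw [Set.mem_singleton_iff] at hw
          subst hw
          exact ⟨mu, IntermediateField.mem_adjoin_simple_self _ mu, rfl⟩
    obtain ⟨z', hz', hzz'⟩ := hle z.2
    have : z' = z := Subtype.ext hzz'
    rw [← this]
    exact hz'
  haveI hfd2a : FiniteDimensional ↥Kt ↥((↥Kt)⟮mu⟯) :=
    IntermediateField.adjoin.finiteDimensional hmuint
  haveI hfd2 : FiniteDimensional ↥Kt ↥(hs_E L h3 N) := by
    rw [htop] at hfd2a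
    exact LinearEquiv.finiteDimensional
      (IntermediateField.topEquiv (F := ↥Kt) (E := ↥(hs_E L h3 N))).toLinearEquiv
  have hfr2 : Module.finrank ↥Kt ↥(hs_E L h3 N) ≤ 3 := by
    have h1 := IntermediateField.adjoin.finrank hmuint
    rw [htop, IntermediateField.finrank_top'] at h1
    rw [h1]
    exact hmudeg
  exact ⟨Kt, hfd1, hfr1, hfd2, hfr2⟩

set_option maxHeartbeats 1600000 in
set_option synthInstance.maxHeartbeats 200000 in
/-- `E` is algebraic over `φ(F)`. -/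
theorem m59h2_s44ro_algebraic (z : ↥(hs_E L h3 N)) :
    ∃ P : Polynomial ↥(lg_F L N), P ≠ 0 ∧
      eval₂ ((hs_phiE h3 (N := N) : ↥(lg_F L N) →ₐ[L] ↥(hs_E L h3 N)) :
        ↥(lg_F L N) →+* ↥(hs_E L h3 N)) z P = 0 := by
  letI : Algebra ↥(lg_F L N) ↥(hs_E L h3 N) :=
    ((hs_phiE h3 (N := N) : ↥(lg_F L N) →ₐ[L] ↥(hs_E L h3 N)) :
      ↥(lg_F L N) →+* ↥(hs_E L h3 N)).toAlgebra
  obtain ⟨Kt, hfd1, -, hfd2, -⟩ := m59h2_s44ro_tower_fields L h3 N
  haveI := hfd1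
  haveI := hfd2
  haveI : FiniteDimensional ↥(lg_F L N) ↥(hs_E L h3 N) :=
    FiniteDimensional.trans ↥(lg_F L N) ↥Kt ↥(hs_E L h3 N)
  obtain ⟨P, hP0, hP⟩ := Algebra.IsAlgebraic.isAlgebraic (R := ↥(lg_F L N)) z
  exact ⟨P, hP0, hP⟩

set_option maxHeartbeats 1600000 in
set_option synthInstance.maxHeartbeats 200000 in
/-- **value-group descent along the Hesse cover** `φ(F) ⊆ φ(F)(μ³) ⊆ E`. -/
theorem m59h2_twfr_tower (R' : ValuationSubring ↥(hs_E L h3 N)) {p : ℕ} (hp0 : p ≠ 0)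
    (hp6 : Nat.Coprime p 6)
    {x : ↥(lg_F L N)} (hx : x ≠ 0) {y' u' : ↥(hs_E L h3 N)} (hu : u' ∈ R' ∧ u' ∉ R'.nonunits)
    (h : hs_phiE h3 (N := N) x = u' * y' ^ p) :
    ∃ y : ↥(lg_F L N), y ≠ 0 ∧
      (hs_phiE h3 (N := N) x / hs_phiE h3 (N := N) y ^ p ∈ R' ∧
        hs_phiE h3 (N := N) x / hs_phiE h3 (N := N) y ^ p ∉ R'.nonunits) := by
  letI : Algebra ↥(lg_F L N) ↥(hs_E L h3 N) :=
    ((hs_phiE h3 (N := N) : ↥(lg_F L N) →ₐ[L] ↥(hs_E L h3 N)) :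
      ↥(lg_F L N) →+* ↥(hs_E L h3 N)).toAlgebra
  obtain ⟨Kt, hfd1, hfr1, hfd2, hfr2⟩ := m59h2_s44ro_tower_fields L h3 N
  haveI := hfd1
  haveI := hfd2
  have hcop : ∀ d : ℕ, 0 < d → d ≤ 4 → Nat.Coprime d p := by
    intro d hd0 hd4
    have h2 : Nat.Coprime 2 p := (Nat.Coprime.coprime_dvd_right (by norm_num : 2 ∣ 6) hp6).symm
    have h3' : Nat.Coprime 3 p := (Nat.Coprime.coprime_dvd_right (by norm_num : 3 ∣ 6) hp6).symm
    have h4 : Nat.Coprime 4 p := by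
      have : Nat.Coprime (2 * 2) p := Nat.Coprime.mul_left h2 h2
      simpa using this
    interval_cases d
    · exact Nat.coprime_one_left p
    · exact h2
    · exact h3'
    · exact h4
  -- step 1: descend to `F(s)`
  have hxK : algebraMap ↥(lg_F L N) ↥Kt x ≠ 0 := by
    rwa [Ne, map_eq_zero]
  obtain ⟨y1, hy10, hy1, hy1'⟩ := twfr_descend (K := ↥Kt) (K' := ↥(hs_E L h3 N)) R' hp0
    (fun d hd0 hd => hcop d hd0 (hd.trans (hfr2.trans (by norm_num)))) hxK hu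
    (show algebraMap ↥Kt ↥(hs_E L h3 N)
      (algebraMap ↥(lg_F L N) ↥Kt x) = u' * y' ^ p from h)
  -- step 2: descend to `F`
  set R1 : ValuationSubring ↥Kt := R'.comap (algebraMap ↥Kt ↥(hs_E L h3 N)) with hR1
  set u1 : ↥Kt := algebraMap ↥(lg_F L N) ↥Kt x / y1 ^ p with hu1
  have hu1R : u1 ∈ R1 ∧ u1 ∉ R1.nonunits := by
    have e : algebraMap ↥Kt ↥(hs_E L h3 N) u1 =
        algebraMap ↥Kt ↥(hs_E L h3 N) (algebraMap ↥(lg_F L N) ↥Kt x) /
          algebraMap ↥Kt ↥(hs_E L h3 N) y1 ^ p := by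
      rw [hu1, map_div₀, map_pow]
    refine ⟨?_, ?_⟩
    · show algebraMap ↥Kt ↥(hs_E L h3 N) u1 ∈ R'
      rw [e]; exact hy1
    · intro hnu
      apply hy1'
      rw [← e]
      rw [ValuationSubring.mem_nonunits_iff_or] at hnu ⊢
      rcases hnu with h0 | h0
      · left; rw [h0, map_zero]
      · right
        intro h1
        apply h0
        show algebraMap ↥Kt ↥(hs_E L h3 N) u1⁻¹ ∈ R'
        rw [map_inv₀]; exact h1
  have hx1 : algebraMap ↥(lg_F L N) ↥Kt x = u1 * y1 ^ p := by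
    rw [hu1, div_mul_cancel₀ _ (pow_ne_zero _ hy10)]
  obtain ⟨y, hy0, hy, hy'⟩ := twfr_descend (K := ↥(lg_F L N)) (K' := ↥Kt) R1 hp0
    (fun d hd0 hd => hcop d hd0 (hd.trans hfr1)) hx hu1R hx1
  refine ⟨y, hy0, ?_, ?_⟩
  · have : algebraMap ↥Kt ↥(hs_E L h3 N)
        (algebraMap ↥(lg_F L N) ↥Kt x / algebraMap ↥(lg_F L N) ↥Kt y ^ p) ∈ R' := hy
    rw [map_div₀, map_pow] at this
    exact this
  · intro hnu
    apply hy'
    rw [ValuationSubring.mem_nonunits_iff_or] at hnu ⊢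
    rcases hnu with h0 | h0
    · left
      have : algebraMap ↥Kt ↥(hs_E L h3 N)
          (algebraMap ↥(lg_F L N) ↥Kt x / algebraMap ↥(lg_F L N) ↥Kt y ^ p) = 0 := by
        rw [map_div₀, map_pow]; exact h0
      exact (map_eq_zero _).1 this
    · right
      intro h1
      apply h0
      have : algebraMap ↥Kt ↥(hs_E L h3 N)
          (algebraMap ↥(lg_F L N) ↥Kt x / algebraMap ↥(lg_F L N) ↥Kt y ^ p)⁻¹ ∈ R' := h1
      rw [map_inv₀, map_div₀, map_pow] at this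
      exact this

end TowerDescent

section Gauss

variable (L : Type) [Field L] [NumberField L] (h3 : (3 : L) ≠ 0)
  (O : ValuationSubring L) [IsDiscreteValuationRing O]

/-- `φ` maps the Gauss ring of `F` into the Gauss ring of `E`. -/
theorem m59h2_s44ro_phi_mem {N : ℕ} [NeZero N] (x : ↥(lg_F L N))
    (hx : gq_IsBdd O L (x : LaurentSeries L)) :
    gq_IsBdd O L ((hs_phiE h3 (N := N) x : ↥(hs_E L h3 N)) : LaurentSeries L) := by
  rw [hs_phiE_coe, hs_phi_apply]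
  exact ssm_ga_beta_isBdd 3 hx

/-- `φ` maps the maximal ideal of the Gauss ring of `F` into that of `E`. -/
theorem m59h2_s44ro_phi_res {N : ℕ} [NeZero N] (x : ↥(lg_F L N))
    (hx : gq_IsBdd O L (x : LaurentSeries L)) (h0 : gq_res O L ⟨(x : LaurentSeries L), hx⟩ = 0) :
    gq_res O L ⟨((hs_phiE h3 (N := N) x : ↥(hs_E L h3 N)) : LaurentSeries L),
      m59h2_s44ro_phi_mem L h3 O x hx⟩ = 0 := by
  have h1 := ssm_ga_res_beta (O := ↥O) (K := L) 3 ⟨(x : LaurentSeries L), hx⟩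
  have h2 : gq_res O L ⟨((hs_phiE h3 (N := N) x : ↥(hs_E L h3 N)) : LaurentSeries L),
      m59h2_s44ro_phi_mem L h3 O x hx⟩ = gq_res O L ⟨qExpand L 3 (x : LaurentSeries L),
        ssm_ga_beta_isBdd 3 hx⟩ :=
    rdn_res_congr _ _ (by rw [hs_phiE_coe, hs_phi_apply])
  rw [h2, h1, h0, map_zero]

end Gauss

section Pts2

variable (L : Type) [Field L] [NumberField L] [Algebra L (AlgebraicClosure ℚ)]
  (h3 : (3 : L) ≠ 0) (O : ValuationSubring L) [IsDiscreteValuationRing O] (h3O : IsUnit (3 : O))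
  {π : O} (hπ : Irreducible π)
variable (N' q : ℕ) [NeZero N'] [NeZero q] [hq : Fact q.Prime] [CharP (ResidueField O) q]
  (hq3 : ¬ 3 ∣ q) (hqN' : ¬ q ∣ N') (ζ : L) (hζ : IsPrimitiveRoot ζ (3 * N'))

include hζ hq3 hqN' hπ in
set_option synthInstance.maxHeartbeats 400000 in
set_option maxHeartbeats 3200000 in
/-- the level-`N'` package of the Hesse tower over `(O, π)`, `π` ANY uniformiser. -/
theorem m59h2_level_pkg :
    jt_RegAt (fc_chart ↥O ({hs_muE h3 N' - 1} : Set ↥(hs_E L h3 N')))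
      (algebraMap ↥O (fc_chart ↥O ({hs_muE h3 N' - 1} : Set ↥(hs_E L h3 N'))) π) ∧
    jt_RegAt (fc_chart ↥O ({(hs_muE h3 N' - 1)⁻¹} : Set ↥(hs_E L h3 N')))
      (algebraMap ↥O (fc_chart ↥O ({(hs_muE h3 N' - 1)⁻¹} : Set ↥(hs_E L h3 N'))) π) ∧
    Prime (algebraMap ↥O (fc_chart ↥O ({hs_muE h3 N' - 1} : Set ↥(hs_E L h3 N'))) π) ∧
    Prime (algebraMap ↥O (fc_chart ↥O ({(hs_muE h3 N' - 1)⁻¹} : Set ↥(hs_E L h3 N'))) π) ∧
    IsIntegrallyClosed (fc_chart ↥O ({hs_muE h3 N' - 1} : Set ↥(hs_E L h3 N')) ⧸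
      (Ideal.span {algebraMap ↥O (fc_chart ↥O ({hs_muE h3 N' - 1} : Set ↥(hs_E L h3 N'))) π} :
        Ideal (fc_chart ↥O ({hs_muE h3 N' - 1} : Set ↥(hs_E L h3 N'))))) ∧
    IsIntegrallyClosed (fc_chart ↥O ({(hs_muE h3 N' - 1)⁻¹} : Set ↥(hs_E L h3 N')) ⧸
      (Ideal.span {algebraMap ↥O
          (fc_chart ↥O ({(hs_muE h3 N' - 1)⁻¹} : Set ↥(hs_E L h3 N'))) π} :
        Ideal (fc_chart ↥O ({(hs_muE h3 N' - 1)⁻¹} : Set ↥(hs_E L h3 N'))))) := by
  have hqO : ((q : ℕ) : O) ∈ maximalIdeal O := by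
    rw [← residue_eq_zero_iff, map_natCast]
    exact CharP.cast_eq_zero _ q
  have hq3' : q ≠ 3 := by
    rintro rfl
    exact hq3 dvd_rfl
  obtain ⟨hreg1, hreg2, hprime1, hprime2, -, hded1, hded2⟩ :=
    ssm_hlr_main h3 O N' hπ q hqO hq3' hqN' ζ hζ
  refine ⟨hreg1, hreg2, hprime1, hprime2, ?_, ?_⟩
  · haveI := hded1
    infer_instance
  · haveI := hded2
    infer_instance

include hζ hq3 hqN' hπ h3O in
set_option synthInstance.maxHeartbeats 400000 in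
set_option maxHeartbeats 3200000 in
/-- the points at infinity of the `x⁻¹`-chart are smooth (any uniformiser). -/
theorem m59h2_s44rs_leg_pts2 :
    ∀ 𝔫 : Ideal (fc_chart ↥O ({(hs_muE h3 (N' * q) - 1)⁻¹} : Set ↥(hs_E L h3 (N' * q)))),
      𝔫.IsMaximal →
      algebraMap ↥O (fc_chart ↥O ({(hs_muE h3 (N' * q) - 1)⁻¹} : Set ↥(hs_E L h3 (N' * q))))
        π ∈ 𝔫 →
      (⟨(hs_muE h3 (N' * q) - 1)⁻¹, fc_x_mem_chart _⟩ :
        fc_chart ↥O ({(hs_muE h3 (N' * q) - 1)⁻¹} : Set ↥(hs_E L h3 (N' * q)))) ∈ 𝔫 →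
      ss_SmoothAt π
        (fc_chart ↥O ({(hs_muE h3 (N' * q) - 1)⁻¹} : Set ↥(hs_E L h3 (N' * q)))) 𝔫 := by
  intro 𝔫 h𝔫 hπ𝔫 hμ𝔫
  obtain ⟨hreg1, hreg2, hprime1, hprime2, hic1, hic2⟩ :=
    m59h2_level_pkg L h3 O hπ N' q hq3 hqN' ζ hζ
  obtain ⟨-, -, hsm21, hsm22⟩ :=
    ssm_sih_smooth h3 O h3O hπ N' q hq3 hqN' hprime1 hprime2 hic1 hic2 hreg1 hreg2
  haveI := ssm_go_isScalarTower O (hs_E L h3 (N' * q))
  haveI := ssm_glh_finite h3 (N' * q)
  obtain ⟨hWB, hw, hw', hsub⟩ := ssm_sfh_inf h3 O h3O hπ N' q hq3 hqN' hprime1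
  exact ssm_inf_ff_smooth (L := L) hπ (ssm_sgm_transcendental h3 (N' * q))
    (ssm_fh_hyp h3 O h3O hπ N' q hq3 hqN' hprime1) (ssm_fh_W h3 N' q hq3 hqN')
    (ssm_fh_W_W h3 N' q hq3 hqN') (fun _ => Iff.rfl) hWB hq.out.two_le hw hw' hsub
    hsm21 hsm22 𝔫 h𝔫 hπ𝔫 hμ𝔫

end Pts2

end Fermat.Agent.M59
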