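/-
M59 / box [C] Mazur at `q = 2`, HESSE PORT, cluster A-RES (helper28).  Prefix `m59h2_`.

Twin of `S44/Res/LegGood.lean` ([RES-DICT-E] (E-1)): THE RESIDUE FIELD OF THE GAUSS VALUATION OF THE
HESSE COVER AT A GOOD LEVEL.

`(L, O)`: `O` a discrete valuation subring of a field `L` of characteristic zero with `3 ∈ Oˣ`,
residue field `k` of characteristic `p ∤ M` (in the application `p = 2`).  Then the Gauss residue of
every Gauss-bounded element of `hs_E L h3 M = L(μ, j(q^{3d}) : d ∣ M)` lies in `hs_E k h3k M`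
(`m59h2_s44re_res_mem_good`).

Route (as on main): `K = L(μ)` has residue field `k(μ̄)`; `E = K(θ)`, `θ = j(q^{3M})`, is an etale
simple extension for the Gauss rings (`Φ_M(j', Y)` is separable modulo `p`), so `s44re_etale` applies.
-/
import Mathlib
import Fermat.Agent.S44.Res.LegGood
import Fermat.Agent.JT3.Inst.HesseH4a
import Fermat.Agent.JT3.Inst.HesseVert
import Fermat.Agent.M59.Hesse2.Res.HesFF

set_option autoImplicit false
set_option linter.unusedSectionVars false
set_option linter.unusedVariables false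
set_option linter.style.haveILetI false

noncomputable section

namespace Fermat.Agent.M59

open ModularCurve IntermediateField IsLocalRing Polynomial
open Fermat.Agent.JT3 Fermat.Agent.SS Fermat.Agent.S28 Fermat.Agent.S44

/-! ### the modular equation of the Hesse twist, for an arbitrary `Φ` (twins of `lgv_modEq_twist`,
`lgv_modEq_E`) -/

section ModEq

variable (L : Type*) [Field L]

theorem m59h2_lgv_modEq_twist {R : Type*} [CommRing R] (d : ℕ) [NeZero d]
    (Φ : Polynomial (Polynomial R))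
    (h0 : Φ.eval₂ (Polynomial.eval₂RingHom (HahnSeries.C : R →+* LaurentSeries R) (jqModC R))
      (qExpand R d (jqModC R)) = 0) (ρ : R →+* L) :
    Φ.eval₂ (Polynomial.eval₂RingHom ((HahnSeries.C : L →+* LaurentSeries L).comp ρ) (hs_j3 L))
      (hs_phi L (qExpand L d (jqModC L))) = 0 := by
  have h0' := lgv_modEq d Φ h0 ρ
  have h1 := Polynomial.hom_eval₂ Φ
    (Polynomial.eval₂RingHom ((HahnSeries.C : L →+* LaurentSeries L).comp ρ) (jqModC L))
    (hs_phi L : LaurentSeries L →+* LaurentSeries L) (qExpand L d (jqModC L))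
  rw [h0', map_zero] at h1
  have h2 : (hs_phi L : LaurentSeries L →+* LaurentSeries L).comp
      (Polynomial.eval₂RingHom ((HahnSeries.C : L →+* LaurentSeries L).comp ρ) (jqModC L))
      = Polynomial.eval₂RingHom ((HahnSeries.C : L →+* LaurentSeries L).comp ρ) (hs_j3 L) := by
    refine Polynomial.ringHom_ext (fun r => ?_) ?_
    · simp only [RingHom.comp_apply, Polynomial.coe_eval₂RingHom, Polynomial.eval₂_C]
      rw [HahnSeries.C_apply, ← algebraMap_laurentSeries_eq_single]
      exact (hs_phi L).commutes _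
    · simp only [RingHom.comp_apply, Polynomial.coe_eval₂RingHom, Polynomial.eval₂_X]
      rfl
  rw [h2] at h1
  exact h1.symm

variable {L} (h3 : (3 : L) ≠ 0) (N : ℕ) [NeZero N]

/-- the generator `θ_N = φ(j(q^N)) = j(q^{3N})` of `E`. -/
def m59h2_lgv_theta : hs_E L h3 N :=
  ⟨hs_phi L (qExpand L N (jqModC L)), hs_phi_mem_E L h3 N (jqModCd_mem_full L N dvd_rfl)⟩

theorem m59h2_lgv_theta_coe :
    ((m59h2_lgv_theta h3 N : hs_E L h3 N) : LaurentSeries L) =
      hs_phi L (qExpand L N (jqModC L)) := rfl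

/-- the modular equation inside `E`, with coefficients pushed through a ring `O`. -/
theorem m59h2_lgv_modEq_E {O : Type*} [CommRing O] [Algebra O L] [Algebra O (hs_E L h3 N)]
    [IsScalarTower O L (hs_E L h3 N)] {R : Type*} [CommRing R]
    (Φ : Polynomial (Polynomial R))
    (h0 : Φ.eval₂ (Polynomial.eval₂RingHom (HahnSeries.C : R →+* LaurentSeries R) (jqModC R))
      (qExpand R N (jqModC R)) = 0) (ρO : R →+* O) :
    Φ.eval₂ (Polynomial.eval₂RingHom ((algebraMap O (hs_E L h3 N)).comp ρO) (hsf_j3E L h3 N))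
      (m59h2_lgv_theta h3 N) = 0 := by
  apply Subtype.ext
  have h1 := Polynomial.hom_eval₂ Φ
    (Polynomial.eval₂RingHom ((algebraMap O (hs_E L h3 N)).comp ρO) (hsf_j3E L h3 N))
    ((hs_E L h3 N).val : hs_E L h3 N →+* LaurentSeries L) (m59h2_lgv_theta h3 N)
  have h2 : ((hs_E L h3 N).val : hs_E L h3 N →+* LaurentSeries L).comp
      (Polynomial.eval₂RingHom ((algebraMap O (hs_E L h3 N)).comp ρO) (hsf_j3E L h3 N))
      = Polynomial.eval₂RingHom ((HahnSeries.C : L →+* LaurentSeries L).comp
          ((algebraMap O L).comp ρO)) (hs_j3 L) := by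
    refine Polynomial.ringHom_ext (fun r => ?_) ?_
    · simp only [RingHom.comp_apply, Polynomial.coe_eval₂RingHom, Polynomial.eval₂_C]
      rw [IsScalarTower.algebraMap_apply O L (hs_E L h3 N), HahnSeries.C_apply,
        ← algebraMap_laurentSeries_eq_single]
      rfl
    · simp only [RingHom.comp_apply, Polynomial.coe_eval₂RingHom, Polynomial.eval₂_X]
      rfl
  rw [h2] at h1
  have h3' : ((hs_E L h3 N).val : hs_E L h3 N →+* LaurentSeries L) (m59h2_lgv_theta h3 N)
      = hs_phi L (qExpand L N (jqModC L)) := rfl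
  rw [h3', m59h2_lgv_modEq_twist L N Φ h0 ((algebraMap O L).comp ρO)] at h1
  exact h1

end ModEq

section Good

variable {L : Type*} [Field L] [CharZero L] (h3 : (3 : L) ≠ 0) (O : ValuationSubring L)
  [IsDiscreteValuationRing O] (h3O : IsUnit (3 : O)) {π : O} (hπ : Irreducible π)

include h3O in
/-- `3 ≠ 0` in the residue field. -/
theorem m59h2_three_ne_zero_res : (3 : ResidueField O) ≠ 0 := by
  have h : IsUnit (residue O (3 : O)) := h3O.map (residue O)
  rw [map_ofNat] at h
  exact h.ne_zero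

/-- `μ̄` is transcendental, in the shape of the Gauss bridge. -/
theorem m59h2_s44re_hlam :
    ∀ P : (ResidueField O)[X], aeval (coeffMap (residue O) (hm_mu O h3O)) P = 0 → P = 0 := by
  intro P hP
  have h3k := m59h2_three_ne_zero_res O h3O
  rw [hm_coeffMap_mu (residue O) h3O (IsUnit.mk0 _ h3k)] at hP
  by_contra hne
  exact hsf_mu_transcendental' (ResidueField O) h3k ⟨P, hne, hP⟩

include hπ in
/-- **the residue field of `L(μ)` is `k(μ̄)`.** -/
theorem m59h2_s44re_res_K {x : LaurentSeries L} (hx : x ∈ hs_K L h3)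
    (hb : gq_IsBdd O L x) :
    gq_res O L ⟨x, hb⟩ ∈ hs_K (ResidueField O) (m59h2_three_ne_zero_res O h3O) := by
  have h3k := m59h2_three_ne_zero_res O h3O
  have hx' : x ∈ IntermediateField.adjoin L {coeffMap (algebraMap O L) (hm_mu O h3O)} := by
    rw [← hsa_mu_eq_iota h3 O h3O]
    exact hx
  obtain ⟨a, b, hb0, h⟩ := (gq_isBdd_adjoin_simple_iff π hπ.ne_zero hπ.maximalIdeal_eq
    (hm_mu O h3O) (m59h2_s44re_hlam O h3O) x hx').1 hb
  have hz2 : coeffMap (residue O) (aeval (hm_mu O h3O) b) ≠ 0 := by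
    rw [gq_red_aeval]
    intro h0
    exact hb0 (m59h2_s44re_hlam O h3O _ h0)
  rw [gq_res_eq ⟨x, hb⟩ hz2 h, gq_red_aeval, gq_red_aeval,
    hm_coeffMap_mu (residue O) h3O (IsUnit.mk0 _ h3k)]
  have hmem : ∀ P : (ResidueField O)[X],
      aeval (hm_mu (ResidueField O) (IsUnit.mk0 _ h3k)) P ∈ hs_K (ResidueField O) h3k := by
    intro P
    rw [aeval_eq_sum_range]
    refine sum_mem fun i _ => ?_
    rw [Algebra.smul_def]
    exact mul_mem (IntermediateField.algebraMap_mem _ _)
      (pow_mem (hs_mu_mem_K (ResidueField O) h3k) i)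
  exact div_mem (hmem _) (hmem _)

section Main

variable (M p : ℕ) [NeZero M] [hp : Fact p.Prime] [CharP (ResidueField O) p]

theorem m59h2_s44re_j2_eq : hs_j3 L = coeffMap (algebraMap O L) (qExpand O 3 (jqModC O)) := by
  rw [hs_j3, coeffMap_qExpand, coeffMap_jqModC]

theorem m59h2_s44re_theta_eq :
    hs_phi L (qExpand L M (jqModC L)) =
      coeffMap (algebraMap O L) (qExpand O 3 (qExpand O M (jqModC O))) := by
  rw [hs_phi_apply, coeffMap_qExpand, coeffMap_qExpand, coeffMap_jqModC]

include hπ in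
/-- **the residue field of the Gauss valuation of the Hesse cover at a good level**. -/
theorem m59h2_s44re_res_mem_good (hpM : ¬ p ∣ M)
    {b : LaurentSeries L} (hbE : b ∈ hs_E L h3 M) (hb : gq_IsBdd O L b) :
    gq_res O L ⟨b, hb⟩ ∈ hs_E (ResidueField O) (m59h2_three_ne_zero_res O h3O) M := by
  have h3k := m59h2_three_ne_zero_res O h3O
  set E0 := hs_E L h3 M with hE0
  have hE : E0 ≤ gq_quotField O L := hsa_E_le_quotField h3 O M h3O
  set B := gq_valSubOf π hπ.ne_zero hπ.maximalIdeal_eq E0 hE with hB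
  set Kf : IntermediateField L ↥E0 := L⟮(hs_muE h3 M : ↥E0)⟯ with hKf
  haveI : FiniteDimensional ↥Kf ↥E0 := hsf_finite L h3 M
  haveI : Algebra.IsSeparable ↥Kf ↥E0 := inferInstance
  haveI := ssm_go_isScalarTower O E0
  set A : ValuationSubring ↥Kf := B.comap (algebraMap ↥Kf ↥E0) with hA
  have hAB : ∀ x : ↥Kf, x ∈ A → algebraMap ↥Kf ↥E0 x ∈ B := fun x hx => hx
  have hdom : ∀ x : ↥Kf, x ∈ A.nonunits → algebraMap ↥Kf ↥E0 x ∈ B.nonunits := by
    intro x hx
    rw [ValuationSubring.mem_nonunits_iff_or] at hx ⊢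
    rcases hx with rfl | hx
    · exact Or.inl (map_zero _)
    · right
      intro h
      apply hx
      show algebraMap ↥Kf ↥E0 x⁻¹ ∈ B
      rw [map_inv₀]
      exact h
  -- the generator
  set θ : ↥E0 := m59h2_lgv_theta h3 M with hθ_def
  have hθcoe : (θ : LaurentSeries L) = hs_phi L (qExpand L M (jqModC L)) := rfl
  have hθB : θ ∈ B := by
    show gq_IsBdd O L (θ : LaurentSeries L)
    rw [hθcoe, m59h2_s44re_theta_eq O M]
    exact gq_isBdd_iota _
  -- constants and `j'` in `A`
  have hqO : ((p : ℕ) : ↥O) ∈ maximalIdeal ↥O := by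
    rw [← residue_eq_zero_iff, map_natCast]
    exact CharP.cast_eq_zero (ResidueField ↥O) p
  obtain ⟨ρO⟩ := lgv_exists_rhoO (L := L) (O := ↥O) (IsFractionRing.injective ↥O L) p hqO
  obtain ⟨Φ, hm, h0, hind⟩ := lgv_Phi_exists M p hpM
  set j2K : ↥Kf := ⟨hsf_j3E L h3 M, hsf_j3E_mem L h3 M⟩ with hj2K
  have hj2A : j2K ∈ A := by
    show gq_IsBdd O L ((hsf_j3E L h3 M : ↥E0) : LaurentSeries L)
    show gq_IsBdd O L (hs_j3 L)
    rw [m59h2_s44re_j2_eq O]
    exact gq_isBdd_iota _
  have hcA : ∀ a : ↥O, algebraMap L ↥Kf (a : L) ∈ A := by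
    intro a
    show gq_IsBdd O L ((algebraMap ↥Kf ↥E0 (algebraMap L ↥Kf (a : L)) : ↥E0) : LaurentSeries L)
    exact s44re_isBdd_const O a
  set f0 : Polynomial ↥(GaloisRep.ratLocalizedAt p) →+* ↥Kf :=
    Polynomial.eval₂RingHom ((algebraMap L ↥Kf).comp ((algebraMap ↥O L).comp ρO)) j2K with hf0
  have hf0A : ∀ c, f0 c ∈ A.toSubring := by
    intro c
    rw [hf0, Polynomial.coe_eval₂RingHom, Polynomial.eval₂_eq_sum_range]
    refine sum_mem fun i _ => ?_
    exact mul_mem (hcA (ρO (c.coeff i))) (pow_mem hj2A i)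
  set fA : Polynomial ↥(GaloisRep.ratLocalizedAt p) →+* ↥A := f0.codRestrict A.toSubring hf0A
    with hfA
  set P : Polynomial ↥A := Φ.map fA with hP
  have hPm : P.Monic := hm.map _
  have hcomp : (algebraMap ↥A ↥E0).comp fA =
      Polynomial.eval₂RingHom ((algebraMap ↥O ↥E0).comp ρO) (hsf_j3E L h3 M) := by
    refine Polynomial.ringHom_ext (fun r => ?_) ?_
    · simp only [RingHom.comp_apply, Polynomial.coe_eval₂RingHom, Polynomial.eval₂_C]
      show algebraMap ↥Kf ↥E0 (f0 (Polynomial.C r)) = _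
      rw [hf0, Polynomial.coe_eval₂RingHom, Polynomial.eval₂_C]
      rfl
    · simp only [RingHom.comp_apply, Polynomial.coe_eval₂RingHom, Polynomial.eval₂_X]
      show algebraMap ↥Kf ↥E0 (f0 Polynomial.X) = _
      rw [hf0, Polynomial.coe_eval₂RingHom, Polynomial.eval₂_X]
      rfl
  have hroot : aeval θ P = 0 := by
    rw [hP, aeval_def, Polynomial.eval₂_map, hcomp]
    exact m59h2_lgv_modEq_E (O := ↥O) h3 M Φ h0 ρO
  -- the residue homomorphism and the evaluation of polynomials over `A`
  set k := ResidueField ↥O with hk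
  set res := s44re_resOf O hπ E0 hE with hres_def
  set ιAB : ↥A →+* ↥B :=
    RingHom.codRestrict ((algebraMap ↥Kf ↥E0).comp A.subtype) B.toSubring (fun x => x.2) with hιAB
  set θB : ↥B := ⟨θ, hθB⟩ with hθB_def
  have hev : ∀ Q : Polynomial ↥A, aeval θ Q = ((Polynomial.eval₂ ιAB θB Q : ↥B) : ↥E0) := by
    intro Q
    have h := Polynomial.hom_eval₂ Q ιAB B.subtype θB
    rw [aeval_def]
    exact h.symm
  have hres : ∀ Q : Polynomial ↥A,
      res (Polynomial.eval₂ ιAB θB Q) = Polynomial.eval₂ (res.comp ιAB) (res θB) Q :=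
    fun Q => Polynomial.hom_eval₂ Q ιAB res θB
  set θk : LaurentSeries k := hs_phi k (qExpand k M (jqModC k)) with hθk
  have hresθ : res θB = θk := by
    rw [hres_def, s44re_resOf_iota O hπ E0 hE θB (qExpand O 3 (qExpand O M (jqModC O)))
      (by rw [← m59h2_s44re_theta_eq O M]; exact hθcoe), coeffMap_qExpand, coeffMap_qExpand,
      coeffMap_jqModC, hθk, hs_phi_apply]
  set ρk : ↥(GaloisRep.ratLocalizedAt p) →+* k := (residue ↥O).comp ρO with hρk
  have hcompk : (res.comp ιAB).comp fA =
      Polynomial.eval₂RingHom ((HahnSeries.C : k →+* LaurentSeries k).comp ρk) (hs_j3 k) := by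
    refine Polynomial.ringHom_ext (fun r => ?_) ?_
    · simp only [RingHom.comp_apply, Polynomial.coe_eval₂RingHom, Polynomial.eval₂_C]
      rw [hres_def, s44re_resOf_iota O hπ E0 hE _ (algebraMap ↥O (LaurentSeries ↥O) (ρO r)) (by
        rw [gq_coeffMap_algebraMap]
        show ((algebraMap ↥Kf ↥E0 (f0 (Polynomial.C r)) : ↥E0) : LaurentSeries L) = _
        rw [hf0, Polynomial.coe_eval₂RingHom, Polynomial.eval₂_C]
        rfl), bd_coeffMap_algebraMap, HahnSeries.C_apply, ← algebraMap_laurentSeries_eq_single]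
      rfl
    · simp only [RingHom.comp_apply, Polynomial.coe_eval₂RingHom, Polynomial.eval₂_X]
      rw [hres_def, s44re_resOf_iota O hπ E0 hE _ (qExpand ↥O 3 (jqModC ↥O)) (by
        rw [← m59h2_s44re_j2_eq O]
        show ((algebraMap ↥Kf ↥E0 (f0 Polynomial.X) : ↥E0) : LaurentSeries L) = _
        rw [hf0, Polynomial.coe_eval₂RingHom, Polynomial.eval₂_X]
        rfl), coeffMap_qExpand, coeffMap_jqModC, hs_j3]
  -- the derivative is a unit
  have htr : Transcendental k (hs_j3 k) := by
    refine lgf_transcendental_of_coeff (n := -3) (by norm_num) ?_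
    have h := qExpand_coeff_mul (R := k) (N := 3) (jqModC k) (-1)
    have h2' : ((3 : ℕ) : ℤ) * (-1) = -3 := by norm_num
    rw [h2'] at h
    rw [hs_j3, h, coeff_jqModC_neg_one]
    exact one_ne_zero
  have hcompt : ((aeval (hs_j3 k) : Polynomial k →ₐ[k] LaurentSeries k) :
      Polynomial k →+* LaurentSeries k).comp (Polynomial.mapRingHom ρk) =
      Polynomial.eval₂RingHom ((HahnSeries.C : k →+* LaurentSeries k).comp ρk) (hs_j3 k) := by
    refine Polynomial.ringHom_ext (fun r => ?_) ?_
    · simp only [RingHom.comp_apply, Polynomial.coe_mapRingHom, Polynomial.map_C,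
        Polynomial.coe_eval₂RingHom, Polynomial.eval₂_C]
      rw [HahnSeries.C_apply, ← algebraMap_laurentSeries_eq_single]
      simp
    · simp only [RingHom.comp_apply, Polynomial.coe_mapRingHom, Polynomial.map_X,
        Polynomial.coe_eval₂RingHom, Polynomial.eval₂_X]
      simp
  have hder : aeval θ (derivative P) ∉ B.nonunits := by
    rw [hev, ← s44re_resOf_eq_zero_iff O hπ E0 hE, ← hres_def, hres, hresθ, hP, derivative_map,
      Polynomial.eval₂_map, hcompk, ← hcompt, ← Polynomial.eval₂_map, ← derivative_map]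
    have hsepk := lgv_separable M p Φ hm h0 hind ρk
    have hrootk : Polynomial.eval₂ ((aeval (hs_j3 k) : Polynomial k →ₐ[k] LaurentSeries k) :
        Polynomial k →+* LaurentSeries k) θk (Φ.map (Polynomial.mapRingHom ρk)) = 0 := by
      rw [Polynomial.eval₂_map, hcompt]
      exact m59h2_lgv_modEq_twist k M Φ h0 ρk
    exact s44re_sep_eval (Φ.map (Polynomial.mapRingHom ρk)) hsepk htr hrootk
  -- `E = K(θ)`
  set θser : LaurentSeries L := hs_phi L (qExpand L M (jqModC L)) with hθser
  have hj2K' : hs_j3 L ∈ hs_K L h3 := hs_j3_mem_K L h3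
  have hgen : IntermediateField.adjoin L {hs_mu L h3, θser} = hs_E L h3 M := by
    apply le_antisymm
    · rw [IntermediateField.adjoin_le_iff]
      rintro x (rfl | rfl)
      · exact hs_mu_mem_E L h3 M
      · exact hs_phi_mem_E L h3 M (jqModCd_mem_full L M dvd_rfl)
    · rw [hs_E, sup_le_iff]
      have hKle : hs_K L h3 ≤ IntermediateField.adjoin L {hs_mu L h3, θser} := by
        rw [hs_K]
        exact IntermediateField.adjoin.mono L _ _ (by
          intro t ht
          rw [Set.mem_singleton_iff] at ht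
          rw [ht]
          exact Set.mem_insert _ _)
      refine ⟨?_, hKle⟩
      rw [hs_F3, gqm_F_eq L M, IntermediateField.adjoin_map, IntermediateField.adjoin_le_iff]
      rintro _ ⟨x, (rfl | rfl), rfl⟩
      · exact hKle hj2K'
      · exact IntermediateField.subset_adjoin L _ (Set.mem_insert_of_mem _ rfl)
  have htop : IntermediateField.adjoin L {(hs_muE h3 M : ↥E0), θ} = ⊤ := by
    apply IntermediateField.map_injective E0.val
    rw [IntermediateField.adjoin_map, ← AlgHom.fieldRange_eq_map, IntermediateField.fieldRange_val,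
      Set.image_pair]
    have e1 : E0.val (hs_muE h3 M) = hs_mu L h3 := rfl
    have e2 : E0.val θ = θser := hθcoe
    rw [e1, e2]
    exact hgen
  have hθtop : Algebra.adjoin ↥Kf {θ} = ⊤ := by
    have hint : IsIntegral ↥Kf θ := Algebra.IsIntegral.isIntegral θ
    rw [← IntermediateField.adjoin_simple_toSubalgebra_of_isAlgebraic hint.isAlgebraic]
    have : IntermediateField.adjoin ↥Kf {θ} = ⊤ := by
      apply IntermediateField.restrictScalars_injective L
      rw [hKf, IntermediateField.adjoin_adjoin_left, IntermediateField.restrictScalars_top,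
        Set.singleton_union]
      exact htop
    rw [this, IntermediateField.top_toSubalgebra]
  -- apply the etale residue lemma
  have hbB : (⟨b, hbE⟩ : ↥E0) ∈ B := hb
  obtain ⟨g, h, hhu, hmul⟩ := s44re_etale A B hAB hdom hθB hθtop P hPm hroot hder hbB
  rw [hev, hev] at hmul
  rw [hev, ← s44re_resOf_eq_zero_iff O hπ E0 hE, ← hres_def] at hhu
  set bB : ↥B := ⟨⟨b, hbE⟩, hbB⟩ with hbB_def
  have hmulB : bB * Polynomial.eval₂ ιAB θB h = Polynomial.eval₂ ιAB θB g := Subtype.ext hmul
  have hmulr := congrArg res hmulB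
  rw [map_mul] at hmulr
  have hresb : res bB = gq_res O L ⟨b, hb⟩ := rfl
  have hmem : ∀ Q : Polynomial ↥A, res (Polynomial.eval₂ ιAB θB Q) ∈ hs_E k h3k M := by
    intro Q
    rw [hres, hresθ, Polynomial.eval₂_eq_sum_range]
    refine sum_mem fun i _ => mul_mem ?_ (pow_mem ?_ i)
    · -- coefficients: residues of bounded elements of `L(μ)`
      apply hs_K_le_E k h3k M
      have hc : ((algebraMap ↥Kf ↥E0 ((Q.coeff i : ↥A) : ↥Kf) : ↥E0) : LaurentSeries L) ∈
          hs_K L h3 := by
        have h' : E0.val (algebraMap ↥Kf ↥E0 ((Q.coeff i : ↥A) : ↥Kf)) ∈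
            (L⟮(hs_muE h3 M : ↥E0)⟯).map E0.val := ⟨_, ((Q.coeff i : ↥A) : ↥Kf).2, rfl⟩
        rw [IntermediateField.adjoin_map, Set.image_singleton] at h'
        exact h'
      exact m59h2_s44re_res_K h3 O h3O hπ hc (Q.coeff i).2
    · exact hs_phi_mem_E k h3k M (jqModCd_mem_full k M dvd_rfl)
  rw [← hresb]
  have : res bB = res (Polynomial.eval₂ ιAB θB g) / res (Polynomial.eval₂ ιAB θB h) := by
    rw [← hmulr, mul_div_assoc, div_self hhu, mul_one]
  rw [this]
  exact div_mem (hmem g) (hmem h)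

end Main

end Good

end Fermat.Agent.M59
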