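/-
M59 / box [C] Mazur at `q = 2`, HESSE PORT, cluster A-RES (helper28).  Prefix `m59h2_`.

Twin of `S44/Res/LegBad.lean` ([RES-DICT-E] (E-2)): THE RESIDUE FIELD OF THE GAUSS VALUATION `w_∞` OF
THE HESSE COVER OF LEVEL `M q` IS THE HESSE COVER OF LEVEL `M` OVER THE RESIDUE FIELD — number-field
level, one-sided form.

`(L, O, π)`: `O` a discrete valuation subring of `L` (characteristic zero) with `3 ∈ Oˣ`, `π` any
uniformiser, residue field `k` of characteristic `q ≠ 3`, `q ∤ M` (application: `q = 2`).  For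
`a ∈ hs_E L h3 (M q)` Gauss-bounded: `gq_res a ∈ hs_E k h3k M` (`m59h2_s44re_res_mem_nf`).  Hence the
reduction homomorphism `m59h2_s44re_r : V1 = ssm_fh_V1 h3 O h3O hπ M q →+* hs_E k h3k M`, with kernel
the non-units, the expected values on constants and on `μ`, and ONTO.
-/
import Mathlib
import Fermat.Agent.M59.Hesse2.Res.HesGood
import Fermat.Agent.S35.RedN.Inst
import Fermat.Agent.SS.Model.FactsHesse

set_option autoImplicit false
set_option linter.unusedSectionVars false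
set_option linter.unusedVariables false
set_option linter.style.haveILetI false

noncomputable section

namespace Fermat.Agent.M59

open ModularCurve IntermediateField IsLocalRing
open Fermat.Agent.JT3 Fermat.Agent.SS Fermat.Agent.S35 Fermat.Agent.S44

section Tower

variable {L : Type*} [Field L] [CharZero L] [Algebra L (AlgebraicClosure ℚ)] (h3 : (3 : L) ≠ 0)
  (O : ValuationSubring L) [IsDiscreteValuationRing O] (h3O : IsUnit (3 : O)) {π : O}
  (hπ : Irreducible π)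
variable (M q : ℕ) [NeZero M] [NeZero q] [hq : Fact q.Prime] [CharP (ResidueField O) q]
  (hq3 : ¬ 3 ∣ q) (hqM : ¬ q ∣ M)

/-- the residue characteristic-free name of `3 ≠ 0` in the residue field. -/
abbrev m59h2_h3k : (3 : ResidueField O) ≠ 0 := m59h2_three_ne_zero_res O h3O

include hπ hq3 hqM in
/-- **the residue field of `w_∞` on the Hesse cover of level `M q` is `hs_E k h3k M`.** -/
theorem m59h2_s44re_res_mem_nf (a : ↥(hs_E L h3 (M * q)))
    (h1 : gq_IsBdd O L (a : LaurentSeries L)) :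
    gq_res O L ⟨(a : LaurentSeries L), h1⟩ ∈ hs_E (ResidueField O) (m59h2_h3k O h3O) M := by
  have hle := ssm_alh_E_le L h3 (ssm_fh_hF9 h3) M q
  letI := ssm_gi_algebra hle
  letI := ssm_gi_algebraV hle
    (gq_valSubOf π hπ.ne_zero hπ.maximalIdeal_eq (hs_E L h3 M)
      (hle.trans (hsa_E_le_quotField h3 O (M * q) h3O)))
  haveI := ssm_gi_isScalarTower hle
    (gq_valSubOf π hπ.ne_zero hπ.maximalIdeal_eq (hs_E L h3 M)
      (hle.trans (hsa_E_le_quotField h3 O (M * q) h3O)))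
  have D := ssm_fh_data h3 O h3O hπ M q hq3 hqM
  haveI : FiniteDimensional ↥(hs_E L h3 M) ↥(hs_E L h3 (M * q)) :=
    ssm_gi_finiteDimensional D.finrank_eq
  haveI : Algebra.IsSeparable ↥(hs_E L h3 M) ↥(hs_E L h3 (M * q)) := ssm_gi_isSeparable
  have ha1 : a ∈ gq_valSubOf π hπ.ne_zero hπ.maximalIdeal_eq (hs_E L h3 (M * q))
      (hsa_E_le_quotField h3 O (M * q) h3O) := h1
  obtain ⟨x, t, ht, hxt⟩ := (ssm_tw_bridge D.over1 a).1 ha1
  obtain ⟨hx1, hx2⟩ := (ssm_tw_integral D (x : ↥(hs_E L h3 (M * q)))).1 x.2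
  obtain ⟨ht1, ht2⟩ := (ssm_tw_integral D (t : ↥(hs_E L h3 (M * q)))).1 t.2
  have hx1' : gq_IsBdd O L (((x : ↥(hs_E L h3 (M * q))) : LaurentSeries L)) := hx1
  have hx2' : gq_IsBdd O L ((ssm_fh_W h3 M q hq3 hqM (x : ↥(hs_E L h3 (M * q))) :
      ↥(hs_E L h3 (M * q))) : LaurentSeries L) := hx2
  have ht1' : gq_IsBdd O L (((t : ↥(hs_E L h3 (M * q))) : LaurentSeries L)) := ht1
  have ht2' : gq_IsBdd O L ((ssm_fh_W h3 M q hq3 hqM (t : ↥(hs_E L h3 (M * q))) :
      ↥(hs_E L h3 (M * q))) : LaurentSeries L) := ht2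
  have key : ∀ (y : ↥(hs_E L h3 (M * q)))
      (hy1 : gq_IsBdd O L ((y : ↥(hs_E L h3 (M * q))) : LaurentSeries L))
      (hy2 : gq_IsBdd O L ((ssm_fh_W h3 M q hq3 hqM y : ↥(hs_E L h3 (M * q))) :
        LaurentSeries L)),
      gq_res O L ⟨(y : LaurentSeries L), hy1⟩ ∈ hs_E (ResidueField O) (m59h2_h3k O h3O) M := by
    intro y hy1 hy2
    obtain ⟨r1, r2, n, hr1, hr2, hn, -, e1, -, -⟩ :=
      rdn_gt_norm_res_aux O hπ q (hs_E L h3 M) (hs_E L h3 (M * q)) hle
        (hsa_E_le_quotField h3 O (M * q) h3O) (ssm_fh_W h3 M q hq3 hqM)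
        (fun z => ssm_alh_coe_WE_of_mem L h3 (ssm_fh_hF9 h3) M q hq.out hq3 hqM z.2 _)
        (ssm_fh_data h3 O h3O hπ M q hq3 hqM) y hy1 hy2
    rw [e1]
    exact m59h2_s44re_res_mem_good h3 O h3O hπ M q hqM r1.2 hr1
  have rx := key (x : ↥(hs_E L h3 (M * q))) hx1' hx2'
  have rt := key (t : ↥(hs_E L h3 (M * q))) ht1' ht2'
  have hrt0 : gq_res O L ⟨((t : ↥(hs_E L h3 (M * q))) : LaurentSeries L), ht1'⟩ ≠ 0 := by
    intro h0
    have h2 := (gq_mem_nonunits_iff_res π hπ.ne_zero hπ.maximalIdeal_eq (hs_E L h3 (M * q))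
      (hsa_E_le_quotField h3 O (M * q) h3O) (t : ↥(hs_E L h3 (M * q))) ht1').2 h0
    exact ht ((ssm_tw_mem_centre D.over1 t).2 h2)
  have hb : gq_IsBdd O L ((a : LaurentSeries L) *
      ((t : ↥(hs_E L h3 (M * q))) : LaurentSeries L)) :=
    (gq_bddSubring O L).mul_mem h1 ht1'
  have hm := rdn_res_mul h1 ht1' hb
  have hc : gq_res O L ⟨(a : LaurentSeries L) *
      ((t : ↥(hs_E L h3 (M * q))) : LaurentSeries L), hb⟩ =
      gq_res O L ⟨((x : ↥(hs_E L h3 (M * q))) : LaurentSeries L), hx1'⟩ :=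
    rdn_res_congr _ _ (by rw [← hxt]; rfl)
  rw [hc] at hm
  have he : gq_res O L ⟨(a : LaurentSeries L), h1⟩ =
      gq_res O L ⟨((x : ↥(hs_E L h3 (M * q))) : LaurentSeries L), hx1'⟩ /
        gq_res O L ⟨((t : ↥(hs_E L h3 (M * q))) : LaurentSeries L), ht1'⟩ := by
    rw [hm, mul_div_assoc, div_self hrt0, mul_one]
  rw [he]
  exact div_mem rx rt

/-- **the reduction homomorphism of the `∞`-component of the Hesse cover of level `M q`**, with
values in the Hesse cover of level `M` over the residue field. -/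
def m59h2_s44re_r :
    ↥(ssm_fh_V1 h3 O h3O hπ M q) →+* ↥(hs_E (ResidueField O) (m59h2_h3k O h3O) M) :=
  (s44re_resOf O hπ (hs_E L h3 (M * q)) (hsa_E_le_quotField h3 O (M * q) h3O)).codRestrict
    (hs_E (ResidueField O) (m59h2_h3k O h3O) M).toSubfield.toSubring
    (fun z => m59h2_s44re_res_mem_nf h3 O h3O hπ M q hq3 hqM (z : ↥(hs_E L h3 (M * q))) z.2)

theorem m59h2_s44re_r_coe (z : ↥(ssm_fh_V1 h3 O h3O hπ M q)) :
    ((m59h2_s44re_r h3 O h3O hπ M q hq3 hqM z : ↥(hs_E (ResidueField O) (m59h2_h3k O h3O) M)) :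
      LaurentSeries (ResidueField O)) =
      gq_res O L ⟨((z : ↥(hs_E L h3 (M * q))) : LaurentSeries L), z.2⟩ := rfl

/-- the kernel of `r` is the maximal ideal of `V1`. -/
theorem m59h2_s44re_r_eq_zero_iff (z : ↥(ssm_fh_V1 h3 O h3O hπ M q)) :
    m59h2_s44re_r h3 O h3O hπ M q hq3 hqM z = 0 ↔
      (z : ↥(hs_E L h3 (M * q))) ∈ (ssm_fh_V1 h3 O h3O hπ M q).nonunits := by
  rw [← s44re_resOf_eq_zero_iff O hπ (hs_E L h3 (M * q))
    (hsa_E_le_quotField h3 O (M * q) h3O) z]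
  constructor
  · intro h
    have := congrArg (fun w : ↥(hs_E (ResidueField O) (m59h2_h3k O h3O) M) =>
      (w : LaurentSeries (ResidueField O))) h
    exact this
  · intro h
    exact Subtype.ext h

/-- the `hker` hypothesis. -/
theorem m59h2_s44re_r_hker (z : ↥(ssm_fh_V1 h3 O h3O hπ M q))
    (hz : (z : ↥(hs_E L h3 (M * q))) ∈ (ssm_fh_V1 h3 O h3O hπ M q).nonunits) :
    m59h2_s44re_r h3 O h3O hπ M q hq3 hqM z = 0 :=
  (m59h2_s44re_r_eq_zero_iff h3 O h3O hπ M q hq3 hqM z).2 hz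

/-- `r` on (the class of) a series with coefficients in `O`. -/
theorem m59h2_s44re_r_iota (z : ↥(ssm_fh_V1 h3 O h3O hπ M q)) (y : LaurentSeries O)
    (hy : ((z : ↥(hs_E L h3 (M * q))) : LaurentSeries L) = coeffMap (algebraMap O L) y) :
    ((m59h2_s44re_r h3 O h3O hπ M q hq3 hqM z : ↥(hs_E (ResidueField O) (m59h2_h3k O h3O) M)) :
      LaurentSeries (ResidueField O)) = coeffMap (residue O) y :=
  s44re_resOf_iota O hπ (hs_E L h3 (M * q)) (hsa_E_le_quotField h3 O (M * q) h3O) z y hy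

/-- `r` on constants. -/
theorem m59h2_s44re_r_const (a : ↥O)
    (h : algebraMap ↥O ↥(hs_E L h3 (M * q)) a ∈ ssm_fh_V1 h3 O h3O hπ M q) :
    m59h2_s44re_r h3 O h3O hπ M q hq3 hqM ⟨algebraMap ↥O ↥(hs_E L h3 (M * q)) a, h⟩ =
      algebraMap (ResidueField O) ↥(hs_E (ResidueField O) (m59h2_h3k O h3O) M) (residue O a) := by
  apply Subtype.ext
  rw [m59h2_s44re_r_iota h3 O h3O hπ M q hq3 hqM _ (algebraMap ↥O (LaurentSeries ↥O) a) (by
    rw [gq_coeffMap_algebraMap]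
    rfl), Fermat.Agent.S28.bd_coeffMap_algebraMap]
  rfl

/-- `r μ = μ̄`. -/
theorem m59h2_s44re_r_lam (h : hs_muE (L := L) h3 (M * q) ∈ ssm_fh_V1 h3 O h3O hπ M q) :
    m59h2_s44re_r h3 O h3O hπ M q hq3 hqM ⟨hs_muE h3 (M * q), h⟩ =
      hs_muE (L := ResidueField O) (m59h2_h3k O h3O) M := by
  apply Subtype.ext
  rw [m59h2_s44re_r_iota h3 O h3O hπ M q hq3 hqM _ (hm_mu ↥O h3O) (by
    rw [← hsa_mu_eq_iota h3 O h3O]
    rfl), hm_coeffMap_mu (residue O) h3O (IsUnit.mk0 _ (m59h2_h3k O h3O))]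
  rfl

include h3O in
/-- `μ` is Gauss-bounded. -/
theorem m59h2_mu_isBdd : gq_IsBdd O L (hs_mu L h3) := by
  rw [hsa_mu_eq_iota h3 O h3O]
  exact gq_isBdd_iota _

/-- `r` is onto: the residue field of `V1` is exactly `hs_E k h3k M`. -/
theorem m59h2_s44re_r_surjective :
    Function.Surjective (m59h2_s44re_r h3 O h3O hπ M q hq3 hqM) := by
  have h3k := m59h2_h3k O h3O
  set k := ResidueField O with hk
  set r := m59h2_s44re_r h3 O h3O hπ M q hq3 hqM with hr
  -- the image of `r` as an intermediate field of `k((q))`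
  let T : IntermediateField k (LaurentSeries k) :=
    { carrier := Set.range fun z : ↥(ssm_fh_V1 h3 O h3O hπ M q) =>
        ((r z : ↥(hs_E k h3k M)) : LaurentSeries k)
      mul_mem' := by
        rintro _ _ ⟨a, rfl⟩ ⟨b, rfl⟩
        exact ⟨a * b, by
          show ((r (a * b) : ↥(hs_E k h3k M)) : LaurentSeries k) = _
          rw [map_mul]; rfl⟩
      one_mem' := ⟨1, by
        show ((r 1 : ↥(hs_E k h3k M)) : LaurentSeries k) = _
        rw [map_one]; rfl⟩
      add_mem' := by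
        rintro _ _ ⟨a, rfl⟩ ⟨b, rfl⟩
        exact ⟨a + b, by
          show ((r (a + b) : ↥(hs_E k h3k M)) : LaurentSeries k) = _
          rw [map_add]; rfl⟩
      zero_mem' := ⟨0, by
        show ((r 0 : ↥(hs_E k h3k M)) : LaurentSeries k) = _
        rw [map_zero]; rfl⟩
      algebraMap_mem' := by
        intro c
        obtain ⟨a, rfl⟩ := residue_surjective c
        have h : algebraMap ↥O ↥(hs_E L h3 (M * q)) a ∈ ssm_fh_V1 h3 O h3O hπ M q :=
          s44re_isBdd_const O a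
        refine ⟨⟨algebraMap ↥O ↥(hs_E L h3 (M * q)) a, h⟩, ?_⟩
        show ((r ⟨algebraMap ↥O ↥(hs_E L h3 (M * q)) a, h⟩ : ↥(hs_E k h3k M)) :
          LaurentSeries k) = _
        rw [hr, m59h2_s44re_r_const h3 O h3O hπ M q hq3 hqM a h]
        rfl
      inv_mem' := by
        rintro _ ⟨a, rfl⟩
        by_cases h0 : r a = 0
        · refine ⟨0, ?_⟩
          show ((r 0 : ↥(hs_E k h3k M)) : LaurentSeries k) =
            (((r a : ↥(hs_E k h3k M)) : LaurentSeries k))⁻¹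
          rw [h0, map_zero]
          simp
        · have hu : (a : ↥(hs_E L h3 (M * q))) ∉ (ssm_fh_V1 h3 O h3O hπ M q).nonunits := fun h =>
            h0 ((m59h2_s44re_r_eq_zero_iff h3 O h3O hπ M q hq3 hqM a).2 h)
          rw [ValuationSubring.mem_nonunits_iff_or, not_or, not_not] at hu
          refine ⟨⟨(a : ↥(hs_E L h3 (M * q)))⁻¹, hu.2⟩, ?_⟩
          have hmul : a * ⟨(a : ↥(hs_E L h3 (M * q)))⁻¹, hu.2⟩ = 1 :=
            Subtype.ext (mul_inv_cancel₀ hu.1)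
          have h1 : r a * r ⟨(a : ↥(hs_E L h3 (M * q)))⁻¹, hu.2⟩ = 1 := by
            rw [← map_mul, hmul, map_one]
          have h2 : r ⟨(a : ↥(hs_E L h3 (M * q)))⁻¹, hu.2⟩ = (r a)⁻¹ :=
            eq_inv_of_mul_eq_one_right h1
          show ((r ⟨(a : ↥(hs_E L h3 (M * q)))⁻¹, hu.2⟩ : ↥(hs_E k h3k M)) : LaurentSeries k) =
            (((r a : ↥(hs_E k h3k M)) : LaurentSeries k))⁻¹
          rw [h2]
          rfl }
  have hT : hs_E k h3k M ≤ T := by
    rw [hs_E, sup_le_iff]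
    constructor
    · rw [hs_F3, lg_F, modularFunctionFieldFullC, IntermediateField.adjoin_map,
        IntermediateField.adjoin_le_iff]
      rintro _ ⟨_, ⟨d, hd, hdM, rfl⟩, rfl⟩
      haveI := hd
      have hmemE : hs_phi L (qExpand L d (jqModC L)) ∈ hs_E L h3 (M * q) :=
        hs_phi_mem_E L h3 (M * q) (jqModCd_mem_full L (M * q) (hdM.trans (dvd_mul_right M q)))
      have hy : hs_phi L (qExpand L d (jqModC L)) =
          coeffMap (algebraMap O L) (qExpand O 3 (qExpand O d (jqModC O))) := by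
        rw [hs_phi_apply, coeffMap_qExpand, coeffMap_qExpand, coeffMap_jqModC]
      have hb : gq_IsBdd O L (hs_phi L (qExpand L d (jqModC L))) := by
        rw [hy]
        exact gq_isBdd_iota _
      refine ⟨⟨⟨_, hmemE⟩, hb⟩, ?_⟩
      show ((r ⟨⟨_, hmemE⟩, hb⟩ : ↥(hs_E k h3k M)) : LaurentSeries k) = _
      rw [hr, m59h2_s44re_r_iota h3 O h3O hπ M q hq3 hqM _ _ hy, coeffMap_qExpand,
        coeffMap_qExpand, coeffMap_jqModC, hs_phi_apply]
    · rw [hs_K, IntermediateField.adjoin_le_iff]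
      rintro _ rfl
      have hb : gq_IsBdd O L (hs_mu L h3) := m59h2_mu_isBdd h3 O h3O
      refine ⟨⟨hs_muE h3 (M * q), hb⟩, ?_⟩
      show ((r ⟨hs_muE h3 (M * q), hb⟩ : ↥(hs_E k h3k M)) : LaurentSeries k) = _
      rw [hr, m59h2_s44re_r_lam h3 O h3O hπ M q hq3 hqM hb]
      rfl
  intro y
  obtain ⟨z, hz⟩ := hT y.2
  exact ⟨z, Subtype.ext hz⟩

end Tower

end Fermat.Agent.M59
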