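/-
M59 / box [C] Mazur at `q = 2`, HESSE PORT, cluster B-UDIV (helper28).  Prefix `m59h2_`.

Twin of `S44/Res/UDivDich.lean` + `S44/Res/UDivMain.lean`: THE ASSEMBLY OF (U-DIV) through the HESSE cover.

* `m59h2_s44ud_node_of_ss`, `m59h2_s44ud_not_node_of_witness`, `m59h2_s44ud_udiv_at` : the dichotomy at one
  number field;
* `m59h2_s44udm_hes_units` : `x = mu - 1` and `t = mu^2 + mu + 1` are units where `j(q^3)` is finite;
* `m59h2_s44udm_at` : the two halves of (U-DIV) at one place, over one number field `L1 ∋ zeta_{3M}`;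
* **`m59h2_s44udm_udiv : s44e_UDiv A M p hp.out hpM`** for every `A` over a prime `p ≠ 3`, `p ∤ M`
  (main's `s44udm_udiv` asks `p ≠ 2`; the Prop `s44e_UDiv` is cover-free and the same).
-/
import Mathlib
import Fermat.Agent.S44.Res.UDivMain
import Fermat.Agent.M59.Hesse2.Mono.HesNodeDict
import Fermat.Agent.M59.Hesse2.Mono.HesUnitNodeLeg
import Fermat.Agent.M59.Hesse2.Mono.HesUnitSmooth

set_option autoImplicit false
set_option linter.unusedSectionVars false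
set_option linter.style.haveILetI false
set_option linter.unusedVariables false

noncomputable section

namespace Fermat.Agent.M59

open Polynomial ModularCurve AlgebraicCurve IntermediateField IsLocalRing
open Fermat.Agent.JT3 Fermat.Agent.SS Fermat.Agent.S35 Fermat.Agent.S24 Fermat.Agent.MZ
  Fermat.Agent.S44

local notation "Qb" => AlgebraicClosure ℚ

section HesUnits

variable {L : Type*} [Field L] [CharZero L] [Algebra L (AlgebraicClosure ℚ)] (h3 : (3 : L) ≠ 0)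
  (O : ValuationSubring L) [IsDiscreteValuationRing O] (h3O : IsUnit (3 : O))

include h3O in
/-- in a valuation ring containing `O` and `j(q³)`, the chart coordinate `x = μ - 1` and
`t = μ² + μ + 1` are NOT in the maximal ideal as soon as `x` is integral: `(μ³ - 1)⁻¹ = (x t)⁻¹` is
integral over `O[j(q³)]`. -/
theorem m59h2_s44udm_hes_units (N : ℕ) [NeZero N] (𝒱 : ValuationSubring ↥(hs_E L h3 N))
    (hO𝒱 : ∀ a : O, algebraMap ↥O ↥(hs_E L h3 N) a ∈ 𝒱) (hj : m59h2_s44mz_j2E L h3 N ∈ 𝒱) :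
    (hs_muE h3 N - 1 : ↥(hs_E L h3 N)) ∉ 𝒱.nonunits ∧
      (hs_muE h3 N : ↥(hs_E L h3 N)) ^ 2 + hs_muE h3 N + 1 ∉ 𝒱.nonunits := by
  haveI := ssm_go_isScalarTower O (hs_E L h3 N)
  have hx : Transcendental L (hs_muE h3 N - 1 : ↥(hs_E L h3 N)) := ssm_sgm_transcendental h3 N
  obtain ⟨u, hu⟩ := m59h2_s44mz_exists_u O h3O
  have hleg := m59h2_s44mz_legE L h3 N
  have hmx : (hs_muE h3 N : ↥(hs_E L h3 N)) = (hs_muE h3 N - 1) + 1 := (sub_add_cancel _ _).symm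
  have hs0 : (hs_muE h3 N : ↥(hs_E L h3 N)) ^ 3 - 1 ≠ 0 := m59h2_hc_s_ne_zero (L := L) hx hmx
  have hS𝒱 := m59h2_s44mz_S_le h3 O N 𝒱 hO𝒱 hj
  have hle := m59h2_s44mz_B_le_S h3 O h3O N
  have hB𝒱 : ∀ b ∈ fc_chart ↥O ({hs_muE h3 N - 1} : Set ↥(hs_E L h3 N)), b ∈ 𝒱 :=
    fun b hb => hS𝒱 b (hle hb)
  have hsinv𝒱 : ((hs_muE h3 N : ↥(hs_E L h3 N)) ^ 3 - 1)⁻¹ ∈ 𝒱 :=
    hS𝒱 _ (fc_mem_chart.2 (m59h2_hc_sinv_integral u hu hleg hs0))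
  have hx𝒱 : (hs_muE h3 N - 1 : ↥(hs_E L h3 N)) ∈ 𝒱 := hB𝒱 _ (fc_x_mem_chart _)
  have ht𝒱 : (hs_muE h3 N : ↥(hs_E L h3 N)) ^ 2 + hs_muE h3 N + 1 ∈ 𝒱 :=
    hB𝒱 _ (m59h2_s44us_t_mem h3 O N)
  have hnot : ∀ y z : ↥(hs_E L h3 N), y ∈ 𝒱.nonunits → z ∈ 𝒱 →
      y * z = (hs_muE h3 N : ↥(hs_E L h3 N)) ^ 3 - 1 → False := by
    intro y z hy hz hyz
    have h1' : (hs_muE h3 N : ↥(hs_E L h3 N)) ^ 3 - 1 ∈ 𝒱.nonunits :=
      hyz ▸ ssm_tp_nonunits_mul 𝒱 hy hz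
    have h2' := ssm_tp_nonunits_mul 𝒱 h1' hsinv𝒱
    rw [mul_inv_cancel₀ hs0, ValuationSubring.mem_nonunits_iff, map_one] at h2'
    exact lt_irrefl _ h2'
  exact ⟨fun h => hnot _ _ h ht𝒱 (by ring), fun h => hnot _ _ h hx𝒱 (by ring)⟩

end HesUnits

section Dich

variable (A : ValuationSubring s44_Qb) {p : ℕ} [hp : Fact p.Prime] (hA : A.LiesOverPrime p)
  (M : ℕ) [NeZero M] [NeZero p] [NeZero (M * p)] (hpM : ¬ p ∣ M) (hp3 : ¬ 3 ∣ p)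
  (L1 : IntermediateField ℚ s44_Qb) (h3 : (3 : ↥L1) ≠ 0)
  [IsDiscreteValuationRing ↥(A.comap (algebraMap L1 s44_Qb))]
  (h3O : IsUnit (3 : ↥(A.comap (algebraMap L1 s44_Qb))))
  [CharP (ResidueField ↥(A.comap (algebraMap L1 s44_Qb))) p]
  {π : ↥(A.comap (algebraMap L1 s44_Qb))} (hπ : Irreducible π)

set_option hygiene false in
local notation "O1" => ValuationSubring.comap A (algebraMap L1 s44_Qb)

variable (hprime : Prime (algebraMap ↥O1 (fc_chart ↥O1 ({(hs_muE h3 M - 1)} : Set ↥(hs_E L1 h3 M))) π))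
  (red : ↥(s44mz_VF O1 hπ M p) →+* ↥(s44e_FF A M))
  (hker0 : ∀ z : ↥(s44mz_VF O1 hπ M p),
    (z : ↥(lg_F L1 (M * p))) ∈ (s44mz_VF O1 hπ M p).nonunits → red z = 0)
  (hred : ∀ (x : ↥(s44mz_VF O1 hπ M p))
    (hb : ssm_al_iotaF L1 (M * p) (x : ↥(lg_F L1 (M * p))) ∈ s44pg_W A hA hp.out.ne_zero (M * p)),
      red x = s44rd_red A hA M hpM ⟨ssm_al_iotaF L1 (M * p) (x : ↥(lg_F L1 (M * p))), hb⟩)
  (Q : Place (s44e_kA A) (s44e_FF A M))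
  {κ : Type*} [Field κ] (r : ↥(ssm_fh_V1 h3 O1 h3O hπ M p) →+* κ)
  (hker : ∀ z : ↥(ssm_fh_V1 h3 O1 h3O hπ M p),
    (z : ↥(hs_E L1 h3 (M * p))) ∈ (ssm_fh_V1 h3 O1 h3O hπ M p).nonunits → r z = 0)
  (𝒲 : ValuationSubring κ)
  (hext : ∀ x : ↥(lg_F L1 (M * p)),
    (hs_phiE h3 (N := M * p)).toRingHom x ∈ tori_comp (ssm_fh_V1 h3 O1 h3O hπ M p) r hker 𝒲 ↔
      x ∈ tori_comp (s44mz_VF O1 hπ M p) red hker0 Q.toValuationSubring)
  (hO𝒱 : ∀ a : ↥O1, algebraMap ↥O1 ↥(hs_E L1 h3 (M * p)) a ∈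
    tori_comp (ssm_fh_V1 h3 O1 h3O hπ M p) r hker 𝒲)
  (hj2 : m59h2_s44mz_j2E L1 h3 (M * p) ∈ tori_comp (ssm_fh_V1 h3 O1 h3O hπ M p) r hker 𝒲)

include hprime hred hext hO𝒱 hj2 in
set_option maxHeartbeats 1600000 in
set_option synthInstance.maxHeartbeats 200000 in
/-- **(SS⟹NODE)**: if `Q` is supersingular, the centre of `𝒱'` on the `λ`-chart lies on the
`0`-component. -/
theorem m59h2_s44ud_node_of_ss (hQ : s44e_IsSS A M p hp.out hpM Q) :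
    ssm_tp_P (fc_chart ↥O1 ({(hs_muE h3 (M * p) - 1)} : Set ↥(hs_E L1 h3 (M * p))))
        (ssm_fh_V2 h3 O1 h3O hπ M p hp3 hpM) ≤
      ssm_tp_P (fc_chart ↥O1 ({(hs_muE h3 (M * p) - 1)} : Set ↥(hs_E L1 h3 (M * p))))
        (tori_comp (ssm_fh_V1 h3 O1 h3O hπ M p) r hker 𝒲) := by
  refine m59h2_s44mz_P2_le_chart h3 O1 h3O hπ M p hp3 hpM hprime _ hO𝒱 hj2 ?_
  intro b hbchart hW
  have hbW1 := s44ud_chart_le A M L1 hπ b hbchart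
  have hbdd : gq_IsBdd ↥O1 L1 ((b : ↥(lg_F L1 (M * p))) : LaurentSeries L1) := hbW1
  have hb : ssm_al_iotaF L1 (M * p) b ∈ s44pg_W A hA hp.out.ne_zero (M * p) :=
    s44ec_isBdd_iotaF A L1 (M * p) b hbdd
  have hint : IsIntegral (Algebra.adjoin ↥O1
      ({rdn_gf_j (L := L1) (M * p)} : Set ↥(lg_F L1 (M * p)))) b := fc_mem_chart.1 hbchart
  have hWbdd : gq_IsBdd ↥O1 L1
      ((ssm_al_W L1 M p hp.out hpM b : ↥(lg_F L1 (M * p))) : LaurentSeries L1) :=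
    ValuationSubring.nonunits_subset hW
  have hW0 : gq_res ↥O1 L1 ⟨_, hWbdd⟩ = 0 :=
    (gq_mem_nonunits_iff_res π hπ.ne_zero hπ.maximalIdeal_eq (lg_F L1 (M * p))
      (rdn_gf_le_quotField O1 (M * p)) _ hWbdd).1 hW
  have h1 := s44ec_isSS_nf A hA M hpM hQ L1 b hint hWbdd hW0 hb
  have h2 : red ⟨b, hbW1⟩ ∈ Q.toValuationSubring.nonunits := by
    rw [hred ⟨b, hbW1⟩ hb]
    exact h1
  exact s44nd_mem_nonunits_of_red (hs_phiE h3 (N := M * p)).toRingHom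
    (s44mz_VF O1 hπ M p) (ssm_fh_V1 h3 O1 h3O hπ M p) red hker0 Q r hker 𝒲 hext h2

include hprime hred hext hO𝒱 hj2 in
set_option maxHeartbeats 1600000 in
set_option synthInstance.maxHeartbeats 200000 in
/-- **(NODE⟹SS), contrapositive**: a witness of non-supersingularity over `L1` shows that the centre
of `𝒱'` is not on the `0`-component. -/
theorem m59h2_s44ud_not_node_of_witness (b1 : ↥(lg_F L1 (M * p)))
    (hb : ssm_al_iotaF L1 (M * p) b1 ∈ s44pg_W A hA hp.out.ne_zero (M * p))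
    (hW : gq_IsBdd ↥O1 L1
      ((ssm_al_W L1 M p hp.out hpM b1 : ↥(lg_F L1 (M * p))) : LaurentSeries L1))
    (hint : IsIntegral (Algebra.adjoin ↥O1
      ({rdn_gf_j (L := L1) (M * p)} : Set ↥(lg_F L1 (M * p)))) b1)
    (hW0 : gq_res ↥O1 L1 ⟨_, hW⟩ = 0)
    (hnot : ((s44rd_red A hA M hpM ⟨ssm_al_iotaF L1 (M * p) b1, hb⟩ : ↥(s44e_FF A M))) ∉
      Q.toValuationSubring.nonunits) :
    ¬ (ssm_tp_P (fc_chart ↥O1 ({(hs_muE h3 (M * p) - 1)} : Set ↥(hs_E L1 h3 (M * p))))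
        (ssm_fh_V2 h3 O1 h3O hπ M p hp3 hpM) ≤
      ssm_tp_P (fc_chart ↥O1 ({(hs_muE h3 (M * p) - 1)} : Set ↥(hs_E L1 h3 (M * p))))
        (tori_comp (ssm_fh_V1 h3 O1 h3O hπ M p) r hker 𝒲)) := by
  intro hnode
  have hchart : b1 ∈ fc_chart ↥O1 ({rpz_jF L1 (M * p)} : Set ↥(lg_F L1 (M * p))) :=
    fc_mem_chart.2 hint
  have hWnu : ssm_al_W L1 M p hp.out hpM b1 ∈ (s44mz_VF O1 hπ M p).nonunits :=
    (gq_mem_nonunits_iff_res π hπ.ne_zero hπ.maximalIdeal_eq (lg_F L1 (M * p))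
      (rdn_gf_le_quotField O1 (M * p)) _ hW).2 hW0
  have h1 := m59h2_s44mzc_ss_of_P2_le h3 O1 h3O hπ M p hp3 hpM hprime _ hO𝒱 hj2 hnode b1 hchart hWnu
  have h2 := (s44nd_nonunits_iff (hs_phiE h3 (N := M * p)).toRingHom
    (s44mz_VF O1 hπ M p) (ssm_fh_V1 h3 O1 h3O hπ M p) red hker0 Q r hker 𝒲 hext b1).1 h1
  rw [tori_comp_mem_nonunits_iff] at h2
  obtain ⟨h3', h4⟩ := h2
  apply hnot
  rw [← hred ⟨b1, h3'⟩ hb]
  exact h4

include hprime hred hext hO𝒱 hj2 in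
set_option maxHeartbeats 1600000 in
set_option synthInstance.maxHeartbeats 200000 in
/-- **the two halves of (U-DIV) at `Q`**, from the outputs of the node cells for a model `U1` of the
modular unit over `L1`: at a centre on the `0`-component `T · ord_Q (red U1) = 12` ((ND-main) +
(U-NODE)(a)), elsewhere `ord_Q (red U1) = 0` ((ND-smooth) + (U-NODE)(b)).  `hwit` is the conclusion of
`s44ec_not_isSS_nf` at `L1` (i.e. `L1` contains the finite set of that theorem). -/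
theorem m59h2_s44ud_udiv_at
    (hwit : ¬ s44e_IsSS A M p hp.out hpM Q →
      ∃ (b1 : ↥(lg_F L1 (M * p)))
        (hb : ssm_al_iotaF L1 (M * p) b1 ∈ s44pg_W A hA hp.out.ne_zero (M * p))
        (hW : gq_IsBdd ↥O1 L1
          ((ssm_al_W L1 M p hp.out hpM b1 : ↥(lg_F L1 (M * p))) : LaurentSeries L1)),
        IsIntegral (Algebra.adjoin ↥O1
          ({rdn_gf_j (L := L1) (M * p)} : Set ↥(lg_F L1 (M * p)))) b1 ∧
        gq_res ↥O1 L1 ⟨_, hW⟩ = 0 ∧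
        ((s44rd_red A hA M hpM ⟨ssm_al_iotaF L1 (M * p) b1, hb⟩ : ↥(s44e_FF A M))) ∉
          Q.toValuationSubring.nonunits)
    (U1 : ↥(s44mz_VF O1 hπ M p))
    (hU1 : ssm_al_iotaF L1 (M * p) (U1 : ↥(lg_F L1 (M * p))) =
      s44hu_U p (M * p) (s44hu_dvd (rfl : M * p = M * p)))
    (hNodeOut : ssm_tp_P (fc_chart ↥O1 ({(hs_muE h3 (M * p) - 1)} : Set ↥(hs_E L1 h3 (M * p))))
          (ssm_fh_V2 h3 O1 h3O hπ M p hp3 hpM) ≤
        ssm_tp_P (fc_chart ↥O1 ({(hs_muE h3 (M * p) - 1)} : Set ↥(hs_E L1 h3 (M * p))))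
          (tori_comp (ssm_fh_V1 h3 O1 h3O hπ M p) r hker 𝒲) →
      ∃ T : ℤ, T * Q.ord (red U1) = 12)
    (hSmoothOut : ¬ (ssm_tp_P (fc_chart ↥O1 ({(hs_muE h3 (M * p) - 1)} : Set ↥(hs_E L1 h3 (M * p))))
          (ssm_fh_V2 h3 O1 h3O hπ M p hp3 hpM) ≤
        ssm_tp_P (fc_chart ↥O1 ({(hs_muE h3 (M * p) - 1)} : Set ↥(hs_E L1 h3 (M * p))))
          (tori_comp (ssm_fh_V1 h3 O1 h3O hπ M p) r hker 𝒲)) →
      Q.ord (red U1) = 0) :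
    (s44e_IsSS A M p hp.out hpM Q → ∃ T : ℤ, T * Q.ord (s44e_ubar A M p) = 12) ∧
    (¬ s44e_IsSS A M p hp.out hpM Q → Q.ord (s44e_ubar A M p) = 0) := by
  have hUb : red U1 = s44e_ubar A M p := by
    rw [hred U1 (s44eu_model_mem A hA M L1 hU1)]
    exact s44eu_red_model A hA M hpM L1 hU1 _
  rw [← hUb]
  refine ⟨fun hQ => ?_, fun hQ => ?_⟩
  · exact hNodeOut
      (m59h2_s44ud_node_of_ss A hA M hpM hp3 L1 h3 h3O hπ hprime red hker0 hred Q r hker 𝒲 hext hO𝒱 hj2 hQ)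
  · obtain ⟨b1, hb, hW, hint, hW0, hnot⟩ := hwit hQ
    exact hSmoothOut
      (m59h2_s44ud_not_node_of_witness A hA M hpM hp3 L1 h3 h3O hπ hprime red hker0 hred Q r hker 𝒲 hext hO𝒱
        hj2 b1 hb hW hint hW0 hnot)

end Dich

/-! ### one place, one number field -/

section At

variable (A : ValuationSubring s44_Qb) {p : ℕ} [hp : Fact p.Prime] (hA : A.LiesOverPrime p)
  (M : ℕ) [NeZero M] [NeZero p] [NeZero (M * p)] (hpM : ¬ p ∣ M) (hp3 : ¬ 3 ∣ p)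
  (L1 : IntermediateField ℚ s44_Qb) (h3 : (3 : ↥L1) ≠ 0)
  [IsDiscreteValuationRing ↥(A.comap (algebraMap L1 s44_Qb))]
  (h3O : IsUnit (3 : ↥(A.comap (algebraMap L1 s44_Qb))))
  [CharP (ResidueField ↥(A.comap (algebraMap L1 s44_Qb))) p]
  {π : ↥(A.comap (algebraMap L1 s44_Qb))} (hπ : Irreducible π)

set_option hygiene false in
local notation "O1" => ValuationSubring.comap A (algebraMap L1 s44_Qb)

include hπ hp3 h3 h3O in
set_option maxHeartbeats 6400000 in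
set_option synthInstance.maxHeartbeats 400000 in
/-- **the two halves of (U-DIV) at one place**, over one number field `L1 ∋ ζ_M` carrying a witness of
non-supersingularity (`hwit`, the conclusion of `s44ec_not_isSS_nf` at `L1`) and a model `U1` of the
modular unit. -/
theorem m59h2_s44udm_at [NumberField L1] (ζ : L1) (hζ : IsPrimitiveRoot ζ (3 * M))
    (Q : Place (s44e_kA A) (s44e_FF A M))
    (hj : jcr_j (k := s44e_kA A) M ∈ Q.toValuationSubring)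
    (hwit : ¬ s44e_IsSS A M p hp.out hpM Q →
      ∃ (b1 : ↥(lg_F L1 (M * p)))
        (hb : ssm_al_iotaF L1 (M * p) b1 ∈ s44pg_W A hA hp.out.ne_zero (M * p))
        (hW : gq_IsBdd ↥O1 L1
          ((ssm_al_W L1 M p hp.out hpM b1 : ↥(lg_F L1 (M * p))) : LaurentSeries L1)),
        IsIntegral (Algebra.adjoin ↥O1
          ({rdn_gf_j (L := L1) (M * p)} : Set ↥(lg_F L1 (M * p)))) b1 ∧
        gq_res ↥O1 L1 ⟨_, hW⟩ = 0 ∧
        ((s44rd_red A hA M hpM ⟨ssm_al_iotaF L1 (M * p) b1, hb⟩ : ↥(s44e_FF A M))) ∉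
          Q.toValuationSubring.nonunits)
    (U1 : ↥(lg_F L1 (M * p)))
    (hU1 : ssm_al_iotaF L1 (M * p) U1 = s44hu_U p (M * p) (s44hu_dvd (rfl : M * p = M * p))) :
    (s44e_IsSS A M p hp.out hpM Q → ∃ T : ℤ, T * Q.ord (s44e_ubar A M p) = 12) ∧
    (¬ s44e_IsSS A M p hp.out hpM Q → Q.ord (s44e_ubar A M p) = 0) := by
  -- the chart package
  haveI := ssm_go_isScalarTower O1 (hs_E L1 h3 (M * p))
  have hx : Transcendental L1 ((hs_muE h3 (M * p) - 1)) :=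
    ssm_sgm_transcendental h3 (M * p)
  have hyA : Transcendental ↥O1 ((hs_muE h3 (M * p) - 1)) := fc_ff_transcendental (L := L1) hx
  haveI : IsIntegrallyClosed (Algebra.adjoin ↥O1 ({(hs_muE h3 (M * p) - 1)} : Set ↥(hs_E L1 h3 (M * p)))) :=
    fc_ff_isIntegrallyClosed hyA
  haveI : FaithfulSMul (Algebra.adjoin ↥O1 ({(hs_muE h3 (M * p) - 1)} : Set ↥(hs_E L1 h3 (M * p))))
      ↥(hs_E L1 h3 (M * p)) :=
    (faithfulSMul_iff_algebraMap_injective _ _).2 Subtype.val_injective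
  haveI := ssm_glh_finite h3 (M * p)
  haveI : IsNoetherianRing ↥(fc_chart ↥O1 ({(hs_muE h3 (M * p) - 1)} : Set ↥(hs_E L1 h3 (M * p)))) :=
    ssm_ths_chart_isNoetherianRing (A0 := ↥O1) (L := L1) hx
  haveI : IsIntegrallyClosed ↥(fc_chart ↥O1 ({(hs_muE h3 (M * p) - 1)} : Set ↥(hs_E L1 h3 (M * p)))) :=
    ssm_ths_chart_isIntegrallyClosed (A0 := ↥O1) (L := L1) _
  haveI : IsFractionRing ↥(fc_chart ↥O1 ({(hs_muE h3 (M * p) - 1)} : Set ↥(hs_E L1 h3 (M * p))))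
      ↥(hs_E L1 h3 (M * p)) :=
    ssm_ths_chart_isFractionRing (A0 := ↥O1) (L := L1) _
  have hprime : Prime (algebraMap ↥O1 (fc_chart ↥O1 ({(hs_muE h3 M - 1)} : Set ↥(hs_E L1 h3 M))) π) :=
    (ssm_nhh_level L1 h3 O1 hπ M p hp3 hpM ζ hζ).1
  have H := ssm_fh_hyp h3 O1 h3O hπ M p hp3 hpM hprime
  have hC := ssm_tp_ff_chart (L := L1) hπ hx
  -- the reduction maps
  set φ : ↥(lg_F L1 (M * p)) →+* ↥(hs_E L1 h3 (M * p)) :=
    (hs_phiE h3 (N := M * p)).toRingHom with hφdef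
  have hφ : ∀ x : ↥(lg_F L1 (M * p)), φ x ∈ ssm_fh_V1 h3 O1 h3O hπ M p ↔ x ∈ s44mz_VF O1 hπ M p :=
    fun x => m59h2_s44nlr_phi_mem_iff h3 O1 h3O hπ M p x
  set red := s44nlr_red A hA M hpM L1 hπ with hreddef
  have hker0 : ∀ z : ↥(s44mz_VF O1 hπ M p),
      (z : ↥(lg_F L1 (M * p))) ∈ (s44mz_VF O1 hπ M p).nonunits → red z = 0 :=
    s44nlr_red_hker A hA M hpM L1 hπ
  have hred : ∀ (x : ↥(s44mz_VF O1 hπ M p))
      (hb : ssm_al_iotaF L1 (M * p) (x : ↥(lg_F L1 (M * p))) ∈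
        s44pg_W A hA hp.out.ne_zero (M * p)),
      red x = s44rd_red A hA M hpM ⟨ssm_al_iotaF L1 (M * p) (x : ↥(lg_F L1 (M * p))), hb⟩ :=
    fun x hb => rfl
  set r := m59h2_s44re_r h3 O1 h3O hπ M p hp3 hpM with hrdef
  have hker : ∀ z : ↥(ssm_fh_V1 h3 O1 h3O hπ M p),
      (z : ↥(hs_E L1 h3 (M * p))) ∈ (ssm_fh_V1 h3 O1 h3O hπ M p).nonunits → r z = 0 :=
    m59h2_s44re_r_hker h3 O1 h3O hπ M p hp3 hpM
  have hCFE : ∃ t : ↥(s44mz_VF O1 hπ M p), Q.ord (red t) = 1 :=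
    s44nlr_hCFE A hA M hpM L1 hπ Q
  -- the Chevalley extension
  obtain ⟨𝒲, hext⟩ := s44nd_exists_ext φ (s44mz_VF O1 hπ M p) (ssm_fh_V1 h3 O1 h3O hπ M p) hφ red hker0
    Q.toValuationSubring r hker
  have h𝒲ne : 𝒲 ≠ ⊤ := s44udm_W_ne_top φ (s44mz_VF O1 hπ M p) (ssm_fh_V1 h3 O1 h3O hπ M p) hφ red hker0 Q
    r hker 𝒲 hext hCFE
  have hk𝒲 : ∀ c : ResidueField ↥O1, algebraMap (ResidueField ↥O1) ↥(hs_E (ResidueField ↥O1) (m59h2_h3k O1 h3O) M) c ∈ 𝒲 :=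
    fun c => s44ndc_const_mem_of_hom A hA (s44nlr_kappa A L1) 𝒲 c
  -- `j₂` is finite at `𝒱'`
  have hj2 : m59h2_s44mz_j2E L1 h3 (M * p) ∈ tori_comp (ssm_fh_V1 h3 O1 h3O hπ M p) r hker 𝒲 := by
    have h1 : φ (rpz_jF L1 (M * p)) = m59h2_s44mz_j2E L1 h3 (M * p) := rfl
    rw [← h1, hext, tori_comp_mem_iff]
    refine ⟨s44udm_jF_mem A M L1 hπ, ?_⟩
    rw [hreddef, s44udm_red_j A hA M hpM L1 hπ]
    exact hj
  have hj' : ∃ h : m59h2_s44mz_j2E L1 h3 (M * p) ∈ ssm_fh_V1 h3 O1 h3O hπ M p,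
      r ⟨m59h2_s44mz_j2E L1 h3 (M * p), h⟩ ∈ 𝒲 := (tori_comp_mem_iff _ r hker 𝒲).1 hj2
  -- the centre
  haveI : Algebra.IsAlgebraic (ResidueField ↥O1)⟮(hs_muE (m59h2_h3k O1 h3O) M : ↥(hs_E (ResidueField ↥O1) (m59h2_h3k O1 h3O) M))⟯
      ↥(hs_E (ResidueField ↥O1) (m59h2_h3k O1 h3O) M) := by
    have hqO : ((p : ℕ) : ↥O1) ∈ maximalIdeal ↥O1 := ssm_fln_q_mem L1 O1 p
    obtain ⟨ρO⟩ := lgv_exists_rhoO (L := L1) (O := ↥O1) (IsFractionRing.injective ↥O1 L1) p hqO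
    haveI := m59h2_s44rl_finite_lam (ResidueField ↥O1) (m59h2_h3k O1 h3O) M hpM
      ((residue ↥O1).comp ρO)
    exact Algebra.IsAlgebraic.of_finite _ _
  obtain ⟨hlam, hB, hmax, h𝔫eq, hπ𝒱, hP1le⟩ := m59h2_s44mz_centre_comp0 h3 O1 h3O hπ M p hp3 hpM hprime
    (residue ↥O1) residue_surjective r hker (m59h2_s44re_r_const h3 O1 h3O hπ M p hp3 hpM)
    (hs_muE (m59h2_h3k O1 h3O) M : ↥(hs_E (ResidueField ↥O1) (m59h2_h3k O1 h3O) M)) 𝒲 hk𝒲 h𝒲ne hj'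
  have hO𝒱 : ∀ a : ↥O1, algebraMap ↥O1 ↥(hs_E L1 h3 (M * p)) a ∈
      tori_comp (ssm_fh_V1 h3 O1 h3O hπ M p) r hker 𝒲 :=
    fun a => hB _ (Subalgebra.algebraMap_mem _ a)
  -- the model of the unit
  have hU1coe : ((U1 : ↥(lg_F L1 (M * p))) : LaurentSeries L1) = mzb_qi_U L1 p :=
    s44eu_model_coe L1 p (M * p) _ hU1
  have hUV1 := m59h2_s44un_V1 h3 O1 h3O hπ M p U1 hU1coe
  have hUW : U1 ∈ s44mz_VF O1 hπ M p := (hφ U1).1 hUV1.2.1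
  have hUiW : U1⁻¹ ∈ s44mz_VF O1 hπ M p := by
    rw [← hφ, map_inv₀]
    exact hUV1.2.2
  have hU0 : U1 ≠ 0 := fun h => hUV1.1 (by rw [h, map_zero])
  have hUunit : IsUnit (⟨U1, hUW⟩ : ↥(s44mz_VF O1 hπ M p)) :=
    IsUnit.of_mul_eq_one (⟨U1⁻¹, hUiW⟩ : ↥(s44mz_VF O1 hπ M p))
      (Subtype.ext (mul_inv_cancel₀ hU0))
  refine m59h2_s44ud_udiv_at A hA M hpM hp3 L1 h3 h3O hπ hprime red hker0 hred Q r hker 𝒲 hext hO𝒱 hj2 hwit
    ⟨U1, hUW⟩ hU1 ?_ ?_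
  · -- the node half
    intro h2
    haveI : (ssm_tp_P (fc_chart ↥O1 ({(hs_muE h3 (M * p) - 1)} : Set ↥(hs_E L1 h3 (M * p))))
        (tori_comp (ssm_fh_V1 h3 O1 h3O hπ M p) r hker 𝒲)).IsPrime := hmax.isPrime
    obtain ⟨u, v, hnode, -⟩ := m59h2_s44mu_node L1 h3 O1 h3O hπ M p hp3 hpM ζ hζ _ hmax hP1le h2
    have hπ𝔫 : algebraMap ↥O1 (fc_chart ↥O1 ({(hs_muE h3 (M * p) - 1)} : Set ↥(hs_E L1 h3 (M * p)))) π ∈
        ssm_tp_P (fc_chart ↥O1 ({(hs_muE h3 (M * p) - 1)} : Set ↥(hs_E L1 h3 (M * p))))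
          (tori_comp (ssm_fh_V1 h3 O1 h3O hπ M p) r hker 𝒲) := (h𝔫eq _).2 hπ𝒱
    have hnd := m59h2_s44un_leg_node h3 O1 h3O hπ M p hp3 hpM hprime U1 hU1coe _ hπ𝔫 hnode
    have hC12 := ssm_tp_ff_chart12 (L := L1) hπ hx
    have hB12V : ∀ b ∈ fc_chart ↥O1 ({(hs_muE h3 (M * p) - 1), ((hs_muE h3 (M * p) - 1))⁻¹} :
        Set ↥(hs_E L1 h3 (M * p))), b ∈ ssm_fh_V1 h3 O1 h3O hπ M p := fun b hb => hC12.le H.over1 hb
    have hϖ : algebraMap ↥O1 ↥(hs_E L1 h3 (M * p)) π ∈ (ssm_fh_V1 h3 O1 h3O hπ M p).nonunits :=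
      H.over1.pi_mem
    have hϖ0 : algebraMap ↥O1 ↥(hs_E L1 h3 (M * p)) π ≠ 0 := H.algebraMap_ne_zero
    have hloc : ∀ z ∈ ssm_fh_V1 h3 O1 h3O hπ M p,
        ∃ b s : ↥(fc_chart ↥O1 ({(hs_muE h3 (M * p) - 1)} : Set ↥(hs_E L1 h3 (M * p)))),
          s ∉ ssm_tp_P (fc_chart ↥O1 ({(hs_muE h3 (M * p) - 1)} : Set ↥(hs_E L1 h3 (M * p))))
            (ssm_fh_V1 h3 O1 h3O hπ M p) ∧ z * (s : ↥(hs_E L1 h3 (M * p))) = (b : ↥(hs_E L1 h3 (M * p))) := by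
      intro z hz
      obtain ⟨t, ht, htz⟩ := (H.mem_V1_iff hC).1 hz
      exact ⟨⟨_, htz⟩, t, ht, mul_comm _ _⟩
    have ha : algebraMap ↥O1 ↥(hs_E L1 h3 (M * p)) ((p : ℕ) : ↥O1) ∈
        (ssm_fh_V1 h3 O1 h3O hπ M p).nonunits := by
      have hqO : ((p : ℕ) : ↥O1) ∈ maximalIdeal ↥O1 := ssm_fln_q_mem L1 O1 p
      rw [hπ.maximalIdeal_eq, Ideal.mem_span_singleton] at hqO
      obtain ⟨c, hc⟩ := hqO
      rw [hc, map_mul]
      exact ssm_tp_nonunits_mul _ hϖ (hO𝒱 c).1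
    obtain ⟨huS, -⟩ := s44ndn_coords _ (fc_chart1_le ((hs_muE h3 (M * p) - 1) : ↥(hs_E L1 h3 (M * p))))
      (ssm_fh_V1 h3 O1 h3O hπ M p) hB12V hP1le hϖ hnode ha
    -- `j₂ ∈ B_𝔫`
    have hunits := m59h2_s44udm_hes_units h3 O1 h3O (M * p)
      (tori_comp (ssm_fh_V1 h3 O1 h3O hπ M p) r hker 𝒲) hO𝒱 hj2
    have hlamB : (⟨(hs_muE h3 (M * p) - 1), fc_x_mem_chart _⟩ :
        ↥(fc_chart ↥O1 ({(hs_muE h3 (M * p) - 1)} : Set ↥(hs_E L1 h3 (M * p))))) ∉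
        ssm_tp_P (fc_chart ↥O1 ({(hs_muE h3 (M * p) - 1)} : Set ↥(hs_E L1 h3 (M * p))))
          (tori_comp (ssm_fh_V1 h3 O1 h3O hπ M p) r hker 𝒲) := fun h => hunits.1 ((h𝔫eq _).1 h)
    have hlam1B : (⟨(hs_muE h3 (M * p) : ↥(hs_E L1 h3 (M * p))) ^ 2 + hs_muE h3 (M * p) + 1,
          m59h2_s44us_t_mem h3 O1 (M * p)⟩ :
        ↥(fc_chart ↥O1 ({(hs_muE h3 (M * p) - 1)} : Set ↥(hs_E L1 h3 (M * p))))) ∉
        ssm_tp_P (fc_chart ↥O1 ({(hs_muE h3 (M * p) - 1)} : Set ↥(hs_E L1 h3 (M * p))))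
          (tori_comp (ssm_fh_V1 h3 O1 h3O hπ M p) r hker 𝒲) := fun h => hunits.2 ((h𝔫eq _).1 h)
    obtain ⟨aj, sj, hsj, hjs⟩ := m59h2_s44us_j2_of_lam h3 O1 (M * p) _ hlamB hlam1B
    have hjS : m59h2_s44mz_j2E L1 h3 (M * p) ∈ ssl_locSub ↥(hs_E L1 h3 (M * p))
        (ssm_tp_P (fc_chart ↥O1 ({(hs_muE h3 (M * p) - 1)} : Set ↥(hs_E L1 h3 (M * p))))
          (tori_comp (ssm_fh_V1 h3 O1 h3O hπ M p) r hker 𝒲)) :=
      (ssl_mem_loc _).2 ⟨aj, sj, hsj, hjs⟩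
    obtain ⟨T, ν, hT, hval, -, -⟩ := s44ndn_value φ (s44mz_VF O1 hπ M p) (ssm_fh_V1 h3 O1 h3O hπ M p) hφ
      red hker0 Q r hker 𝒲 hext _ (fc_chart1_le ((hs_muE h3 (M * p) - 1) : ↥(hs_E L1 h3 (M * p)))) hB h𝔫eq
      hϖ hϖ0 (m59h2_s44ndl_unif h3 O1 h3O hπ M p) (m59h2_s44re_r_surjective h3 O1 h3O hπ M p hp3 hpM) hloc hB12V hnode ha
      huS hk𝒲 hCFE hUunit (c := 12) (hnd huS hjS)
    exact ⟨T, hval⟩
  · -- the smooth half
    intro h2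
    haveI : (ssm_tp_P (fc_chart ↥O1 ({(hs_muE h3 (M * p) - 1)} : Set ↥(hs_E L1 h3 (M * p))))
        (tori_comp (ssm_fh_V1 h3 O1 h3O hπ M p) r hker 𝒲)).IsPrime := hmax.isPrime
    have hz := m59h2_s44us_smooth_centre h3 O1 h3O hπ M p hp3 hpM hprime
      (tori_comp (ssm_fh_V1 h3 O1 h3O hπ M p) r hker 𝒲) (tori_comp_le _ r hker 𝒲) hO𝒱 hj2 _ h𝔫eq h2
      U1 hU1coe hUV1
    exact s44nd_unit_chart φ (s44mz_VF O1 hπ M p) (ssm_fh_V1 h3 O1 h3O hπ M p) red hker0 Q r hker 𝒲 hext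
      _ hB h𝔫eq hUunit hz

end At

/-! ### (U-DIV) -/

section Final

variable (A : ValuationSubring s44_Qb) {p : ℕ} [hp : Fact p.Prime] (hA : A.LiesOverPrime p)
  (M : ℕ) [NeZero M] [NeZero p] [NeZero (M * p)] (hpM : ¬ p ∣ M) (hp3 : ¬ 3 ∣ p)

include hA hp3 in
set_option maxHeartbeats 1600000 in
set_option synthInstance.maxHeartbeats 400000 in
/-- **(U-DIV)**: at every place `Q` of `FF_M / kA` with `j̄` finite, `ord_Q ū` divides `12` if `Q` is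
supersingular and vanishes otherwise. -/
theorem m59h2_s44udm_udiv : s44e_UDiv A M p hp.out hpM := by
  classical
  intro Q hj
  -- the three finite sets
  obtain ⟨T2, hT2⟩ := s44eu_exists_model p (M * p) (s44hu_dvd (rfl : M * p = M * p))
  haveI : NeZero (3 * M) := ⟨Nat.mul_ne_zero (by norm_num) (NeZero.ne M)⟩
  obtain ⟨ζ0, hζ0⟩ := HasEnoughRootsOfUnity.exists_primitiveRoot Qb (3 * M)
  have hT1 : ∃ T1 : Finset Qb, ∀ (L1 : IntermediateField ℚ s44_Qb) [FiniteDimensional ℚ L1],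
      (↑T1 : Set Qb) ⊆ L1 → ¬ s44e_IsSS A M p hp.out hpM Q →
      ∃ (b1 : ↥(lg_F L1 (M * p)))
        (hb : ssm_al_iotaF L1 (M * p) b1 ∈ s44pg_W A hA hp.out.ne_zero (M * p))
        (hW : gq_IsBdd ↥(A.comap (algebraMap L1 s44_Qb)) L1
          ((ssm_al_W L1 M p hp.out hpM b1 : ↥(lg_F L1 (M * p))) : LaurentSeries L1)),
        IsIntegral (Algebra.adjoin ↥(A.comap (algebraMap L1 s44_Qb))
          ({rdn_gf_j (L := L1) (M * p)} : Set ↥(lg_F L1 (M * p)))) b1 ∧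
        gq_res ↥(A.comap (algebraMap L1 s44_Qb)) L1 ⟨_, hW⟩ = 0 ∧
        ((s44rd_red A hA M hpM ⟨ssm_al_iotaF L1 (M * p) b1, hb⟩ : ↥(s44e_FF A M))) ∉
          Q.toValuationSubring.nonunits := by
    by_cases hQ : s44e_IsSS A M p hp.out hpM Q
    · exact ⟨∅, fun L1 _ _ h => absurd hQ h⟩
    · obtain ⟨T1, h⟩ := s44ec_not_isSS_nf A hA M hpM hj hQ
      exact ⟨T1, fun L1 _ hL _ => h L1 hL⟩
  obtain ⟨T1, hT1⟩ := hT1
  -- the number field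
  obtain ⟨L1, hfd, -, hT, -⟩ := s44b_exists_nf (M * p) ∅ (T1 ∪ T2 ∪ {ζ0})
  haveI : FiniteDimensional ℚ ↥L1 := hfd
  haveI : NumberField ↥L1 := { to_charZero := inferInstance, to_finiteDimensional := hfd }
  haveI : IsDiscreteValuationRing ↥(A.comap (algebraMap ↥L1 Qb)) :=
    dsc_isDVR_comap_numberField A p hA hp.out.ne_zero ↥L1
  obtain ⟨π, hπ⟩ := IsDiscreteValuationRing.exists_irreducible ↥(A.comap (algebraMap ↥L1 Qb))
  haveI : CharP (ResidueField ↥(A.comap (algebraMap ↥L1 Qb))) p :=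
    ss_nfl_charP_residue (lg_natCast_mem_maximalIdeal A hA ↥L1)
  have hT1' : (↑T1 : Set Qb) ⊆ L1 := fun a ha => hT (by
    rw [Finset.mem_coe] at ha ⊢
    exact Finset.mem_union_left _ (Finset.mem_union_left _ ha))
  have hT2' : (↑T2 : Set Qb) ⊆ L1 := fun a ha => hT (by
    rw [Finset.mem_coe] at ha ⊢
    exact Finset.mem_union_left _ (Finset.mem_union_right _ ha))
  have hζmem : ζ0 ∈ L1 := hT (by
    rw [Finset.mem_coe]
    exact Finset.mem_union_right _ (Finset.mem_singleton_self ζ0))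
  have hζ : IsPrimitiveRoot (⟨ζ0, hζmem⟩ : ↥L1) (3 * M) :=
    (IsPrimitiveRoot.map_iff_of_injective (f := algebraMap ↥L1 Qb)
      (FaithfulSMul.algebraMap_injective ↥L1 Qb)).1 hζ0
  obtain ⟨U1, hU1⟩ := hT2 L1 hT2'
  have h3 : (3 : ↥L1) ≠ 0 := three_ne_zero
  have h3O : IsUnit (3 : ↥(A.comap (algebraMap ↥L1 Qb))) :=
    ssm_fhn_isUnit_three ↥L1 (A.comap (algebraMap ↥L1 Qb)) p hp3
  exact m59h2_s44udm_at A hA M hpM hp3 L1 h3 h3O hπ ⟨ζ0, hζmem⟩ hζ Q hj (hT1 L1 hT1') U1 hU1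

end Final

end Fermat.Agent.M59
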