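/-
M59 / box [C] Mazur at `q = 2`, HESSE PORT, cluster B-UDIV (helper28).  Prefix `m59h2_`.

Twin of the `q ≠ 2`-dependent part of `TW/Easy/HeckeRes/Weights.lean` and `TW/Easy/HeckeRes/Main.lean`
(cells (Z4) [HeckeRes-tame] + [B_eis]) with the hypothesis `q ≠ 2` replaced by `¬ 3 ∣ q`: all statements are
cover-free and literally main's (`twfh_k`, `twfh_B`, `twfr_nu` are main's definitions); the two geometric inputs
are `m59h2_s44udm_udiv` ((U-DIV) through the Hesse cover) and `m59h2_twfr_ord` ((E2-ord) through the Hesse cover).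
-/
import Mathlib
import Fermat.Agent.TW.Easy.HeckeRes.Main
import Fermat.Agent.M59.Hesse2.Res.HesUDiv
import Fermat.Agent.M59.Hesse2.Res.HesOrdMain

set_option autoImplicit false
set_option linter.unusedSectionVars false
set_option linter.unusedVariables false
set_option linter.style.haveILetI false
set_option synthInstance.maxHeartbeats 400000
set_option maxHeartbeats 1000000

noncomputable section

namespace Fermat.Agent.M59

open ModularCurve AlgebraicCurve IntermediateField IsLocalRing Module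
open Fermat.Agent.JT3 Fermat.Agent.SS Fermat.Agent.S35 Fermat.Agent.S24 Fermat.Agent.S28
open Fermat.Agent.MZ Fermat.Agent.S44 Fermat.Agent.TW

local notation "Qb" => AlgebraicClosure ℚ

section Weights

variable (A : ValuationSubring Qb) {q : ℕ} [hq : Fact q.Prime] (hA : A.LiesOverPrime q)
  (M : ℕ) [NeZero M] [NeZero q] [NeZero (M * q)] (hqM : ¬ q ∣ M) (hq3 : ¬ 3 ∣ q)
  {m : ℕ} (hm6 : Nat.Coprime m 6)

include hA hq3
include hA hq3

/-- on `Sg`, `ord_Q ū` divides `12` ((U-DIV), on main for every `A` over an odd prime). -/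
theorem m59h2_twfh_ord_ubar_dvd (i : s44e_Sg A M q hq.out hqM) :
    Place.ord i.1 (s44e_ubar A M q) ∣ 12 := by
  exact s44e_ord_ubar_dvd_of_udiv (m59h2_s44udm_udiv A hA M hqM hq3) i

/-- off `Sg`, at the non-cuspidal places, `ord_Q ū = 0`. -/
theorem m59h2_twfh_ord_ubar_off (Q : Place (s44e_kA A) (s44e_FF A M))
    (hj : jcr_j (k := s44e_kA A) M ∈ Q.toValuationSubring)
    (hQ : ¬ s44e_IsSS A M q hq.out hqM Q) : Q.ord (s44e_ubar A M q) = 0 := by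
  exact s44e_ord_ubar_off (m59h2_s44udm_udiv A hA M hqM hq3) Q hj hQ

include hm6

theorem m59h2_twfh_ordU_isUnit (i : s44e_Sg A M q hq.out hqM) : IsUnit (twfh_ordU A M q m i.1) :=
  twfh_isUnit_of_dvd_twelve hm6 (m59h2_twfh_ord_ubar_dvd A hA M hqM hq3 i)

/-- `k_i · (ord_{Q_i} ū mod m) = 1`. -/
theorem m59h2_twfh_k_mul_ordU (i : s44e_Sg A M q hq.out hqM) :
    twfh_k A M q hq.out hqM m i * ((Place.ord i.1 (s44e_ubar A M q) : ℤ) : ZMod m) = 1 := by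
  rw [twfh_k_def, ← twfh_ordU_def]
  exact ZMod.inv_mul_of_unit _ (m59h2_twfh_ordU_isUnit A hA M hqM hq3 hm6 i)

theorem m59h2_twfh_k_isUnit (i : s44e_Sg A M q hq.out hqM) : IsUnit (twfh_k A M q hq.out hqM m i) :=
  IsUnit.of_mul_eq_one _ (m59h2_twfh_k_mul_ordU A hA M hqM hq3 hm6 i)

/-- `(k_i)⁻¹ = ord_{Q_i} ū mod m`. -/
theorem m59h2_twfh_k_inv (i : s44e_Sg A M q hq.out hqM) :
    (twfh_k A M q hq.out hqM m i)⁻¹ = twfh_ordU A M q m i.1 :=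
  ZMod.inv_eq_of_mul_eq_one m _ _ (m59h2_twfh_k_mul_ordU A hA M hqM hq3 hm6 i)

/-- **mono in the slope form**: `T · ord_Q ū = 12`, `T · ord_Q f̄_z ≡ c_V (mod m)` ⟹
`k_Q · ν_Q(z) = c_V · 12⁻¹` in `ZMod m`. -/
theorem m59h2_twfh_k_mul_of_slope (i : s44e_Sg A M q hq.out hqM) (z : JZero (M * q)) {T cV : ℤ}
    (hu : T * Place.ord i.1 (s44e_ubar A M q) = 12)
    (hV : T * Place.ord i.1 (twfr_fbar A M q m z) ≡ cV [ZMOD (m : ℤ)]) :
    twfh_k A M q hq.out hqM m i * twfr_nu A M q hq.out hqM m z i =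
      (cV : ZMod m) * ((12 : ℤ) : ZMod m)⁻¹ := by
  have h12 : IsUnit (((12 : ℤ)) : ZMod m) := twfh_isUnit_of_dvd_twelve hm6 (dvd_refl _)
  have hu' : ((T : ℤ) : ZMod m) * twfh_ordU A M q m i.1 = ((12 : ℤ) : ZMod m) := by
    rw [twfh_ordU_def, ← hu]; push_cast; ring
  have hV' : ((T : ℤ) : ZMod m) * twfr_nu A M q hq.out hqM m z i = (cV : ZMod m) := by
    have := (ZMod.intCast_eq_intCast_iff _ _ m).2 hV
    rw [← this]
    show _ * twfr_nuAll A M q m z i.1 = _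
    rw [twfr_nuAll]; push_cast; ring
  have hk := m59h2_twfh_k_mul_ordU A hA M hqM hq3 hm6 i
  rw [← twfh_ordU_def] at hk
  -- `k = T · 12⁻¹`
  have hkT : twfh_k A M q hq.out hqM m i = ((T : ℤ) : ZMod m) * ((12 : ℤ) : ZMod m)⁻¹ := by
    have h1 : twfh_k A M q hq.out hqM m i * ((12 : ℤ) : ZMod m) = ((T : ℤ) : ZMod m) := by
      rw [← hu', mul_comm ((T : ℤ) : ZMod m), ← mul_assoc, hk, one_mul]
    rw [← h1, mul_assoc, ZMod.mul_inv_of_unit _ h12, mul_one]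
  rw [hkT, mul_right_comm, hV']

end Weights

section Closed

variable (A : ValuationSubring Qb) {q : ℕ} [hq : Fact q.Prime] (hA : A.LiesOverPrime q)
  (M : ℕ) [NeZero M] [NeZero q] [NeZero (M * q)] (hqM : ¬ q ∣ M) (hq3 : ¬ 3 ∣ q)
  {m : ℕ} (hm0 : m ≠ 0) (hm6 : Nat.Coprime m 6)

include hq3 hm0 hm6 in
/-- **(Z4) HECKE-RES, two primes**: `ν (T_ℓ z) = B_ℓ (ν z)` on `J₀(M q)[m]`, every prime `ℓ ∤ M q`. -/
theorem m59h2_twfh_heckeRes (ℓ : Nat.Primes) (hℓN : ¬ (ℓ : ℕ) ∣ M * q) (z : JZero (M * q))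
    (hz : m • z = 0) :
    twfr_nu A M q hq.out hqM m (heckeOperatorBar (M * q) ℓ z) =
      twfh_B A hA M hqM m ℓ (twfr_nu A M q hq.out hqM m z) := by
  haveI : NeZero (ℓ : ℕ) := ⟨ℓ.2.ne_zero⟩
  haveI : CharP (ResidueField ↥A) q := jcr_charP A hA
  haveI : IsAlgClosed (ResidueField ↥A) := jcr_isAlgClosed A
  have hm := Nat.pos_of_ne_zero hm0
  have hqℓ : ¬ q ∣ (ℓ : ℕ) := s44hz_not_dvd M ℓ.2 hℓN
  haveI hPD' := s44hd_hasPrincipalDivisorsC A hA M (ℓ : ℕ) hqM hqℓ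
  have hmem := s44rd_hmem A hA M hqM
  have hfb := twfr_fbar_spec' A hA M hqM hm0 hz
  have hT := twfh_fbar_hecke A hA M hqM ℓ hℓN hfb
  obtain ⟨_, _, _, hfin, _, hN⟩ := s44hd_heckeInputsC A hA M (ℓ : ℕ) hqM hqℓ
  haveI hPD : HasPrincipalDivisors (ResidueField ↥A)
      ↥(modularFunctionFieldFullC (ResidueField ↥A) M) :=
    rt_hasPrincipalDivisors (jcr_isSepGen (k := ResidueField ↥A) M hqM
      (vx_rho q (ResidueField ↥A)))
  obtain ⟨D, hD, -⟩ := hPD.exists_divisor (twfr_fbar A M q m z) hfb.1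
  rw [twfh_B_eq A hA M hqM m ℓ hℓN]
  funext i
  have h1 := s44he_ord_B' (mzrh_beC (ResidueField ↥A) M (ℓ : ℕ))
    (mzrh_alC (ResidueField ↥A) M (ℓ : ℕ))
    (s44hz_beC_isIntegral A hA M hqM (ℓ : ℕ) hqℓ)
    (s44hd_alC_isIntegral A hA M (ℓ : ℕ) hqM hqℓ) m
    {Q | s44e_IsSS A M q hq.out hqM Q} hfin hN hfb.1 hD
    (fun w _ hw' => twfr_ord_off_of_Fbar A hA M hqM hm0 (m59h2_twfr_ord A hA M hqM hq3 hm0 hm6) hfb _ hw')
    ⟨i.1, i.2⟩
  show twfr_nuAll A M q m (heckeOperatorBar (M * q) ℓ z) i.1 = _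
  rw [twfr_nuAll_eq A hq.out hA M hm hmem hT i.1]
  exact h1

include hq3 hm6 in
/-- **(Z4) B-EIS, two primes**: `B_ℓ (1/k) = (ℓ + 1) (1/k)` for `k = twfh_k`, every prime `ℓ ∤ M q`. -/
theorem m59h2_twfh_BEis (ℓ : Nat.Primes) (hℓN : ¬ (ℓ : ℕ) ∣ M * q) :
    twfh_B A hA M hqM m ℓ (fun i => (twfh_k A M q hq.out hqM m i)⁻¹) =
      (((ℓ : ℕ) : ZMod m) + 1) • fun i => (twfh_k A M q hq.out hqM m i)⁻¹ := by
  haveI : NeZero (ℓ : ℕ) := ⟨ℓ.2.ne_zero⟩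
  haveI : CharP (ResidueField ↥A) q := jcr_charP A hA
  haveI : IsAlgClosed (ResidueField ↥A) := jcr_isAlgClosed A
  have hℓ : (ℓ : ℕ).Prime := ℓ.2
  have hqℓ : ¬ q ∣ (ℓ : ℕ) := s44hz_not_dvd M ℓ.2 hℓN
  have hℓM : ¬ (ℓ : ℕ) ∣ M := fun h => hℓN (h.mul_right q)
  have hqMℓ : ¬ q ∣ M * (ℓ : ℕ) := fun h => (hq.out.dvd_mul.mp h).elim hqM hqℓ
  haveI hPD' := s44hd_hasPrincipalDivisorsC A hA M (ℓ : ℕ) hqM hqℓ
  rw [twfh_B_eq A hA M hqM m ℓ hℓN]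
  obtain ⟨_, _, _, hfin, _, hN⟩ := s44hd_heckeInputsC A hA M (ℓ : ℕ) hqM hqℓ
  haveI hPD : HasPrincipalDivisors (ResidueField ↥A)
      ↥(modularFunctionFieldFullC (ResidueField ↥A) M) :=
    rt_hasPrincipalDivisors (jcr_isSepGen (k := ResidueField ↥A) M hqM
      (vx_rho q (ResidueField ↥A)))
  have hub : s44e_ubar A M q ≠ 0 := s44hu_e_ubar_ne_zero A hA M hqM
  obtain ⟨D, hD, -⟩ := hPD.exists_divisor (s44e_ubar A M q) hub
  have hdeg := s44hd_finrank_alC A hA M (ℓ : ℕ) hℓ hℓM hqM hqMℓ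
  have h1 : (((ℓ : ℕ) : ZMod m)) + 1 = (((ℓ : ℕ) + 1 : ℕ) : ZMod m) := by push_cast; rfl
  rw [h1]
  refine twfh_B_eis_of_unit (mzrh_beC (ResidueField ↥A) M (ℓ : ℕ))
    (mzrh_alC (ResidueField ↥A) M (ℓ : ℕ)) _ _ m {Q | s44e_IsSS A M q hq.out hqM Q} hfin hN
    (fun i => twfh_k A M q hq.out hqM m i) ((ℓ : ℕ) + 1) hub hD ?_ ?_ ?_
  · intro Q
    rw [s44hu_ubar_eq A hA M hqM]
    exact s44hu_ord_hecke A hA rfl hqM (ℓ : ℕ) hqMℓ hℓ hℓN hdeg
      (s44hu_unit_hecke q (M * q) (s44hu_dvd rfl) (ℓ : ℕ) hℓ hℓN) Q.1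
  · intro Q
    exact m59h2_twfh_k_mul_ordU A hA M hqM hq3 hm6 Q
  · intro w hw hw'
    have h2 : mzrh_alC (ResidueField ↥A) M (ℓ : ℕ) (jcr_j (k := ResidueField ↥A) M) ∈
        w.toValuationSubring := hw.1
    have h3 : mzrh_beC (ResidueField ↥A) M (ℓ : ℕ) (jcr_j (k := ResidueField ↥A) M) ∈
        w.toValuationSubring :=
      s44hu_noncusp (ResidueField ↥A) (vx_rho q (ResidueField ↥A)) M (ℓ : ℕ) hqℓ
        w.toValuationSubring w.algebraMap_mem' h2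
    rw [m59h2_twfh_ord_ubar_off A hA M hqM hq3 _ h3 hw']
    exact dvd_zero _

end Closed

end Fermat.Agent.M59

end
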