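/-
M59 / box [C] Mazur at `q = 2`, HESSE PORT, cluster A-RES (helper28).  Prefix `m59h2_`.

Twin of the closed half of `TW/Easy/ResHecke/Main.lean` + `TW/Easy/Asm/ResHeckeAll.lean`: cell (Z6)
[RES-Hecke] with the level prime `q` only assumed `≠ 3` (in use `q = 2`), exponent `m ≠ 0` coprime to
`6`.  Headlines:

* `m59h2_twfq_delta_hecke` : `δ (T_ℓ z) = T̃_ℓ (δ z)` on `J₀(M q)[m] ∩ ker ν`, every prime `ℓ ∤ M q`;
* `m59h2_twf_resHecke`     : main's cover-free cell Prop `twf_ResHecke_stmt A M hqM m` for `3 ∤ q`;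
* `m59h2_twf_resHeckeAll`  : the same for all `(M, q, p, A)`, `p ≥ 5`, `3 ∤ q`.
-/
import Mathlib
import Fermat.Agent.TW.Easy.ResHecke.Main
import Fermat.Agent.TW.Easy.GeoSeam
import Fermat.Agent.TW.Easy.Asm.ResHeckeAll
import Fermat.Agent.M59.Hesse2.Res.HesMain

set_option autoImplicit false
set_option linter.unusedSectionVars false
set_option linter.unusedVariables false
set_option linter.style.haveILetI false

noncomputable section

namespace Fermat.Agent.M59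

open ModularCurve AlgebraicCurve IntermediateField IsLocalRing
open Fermat.Agent.JT3 Fermat.Agent.SS Fermat.Agent.S35 Fermat.Agent.S24 Fermat.Agent.S28
open Fermat.Agent.MZ Fermat.Agent.S44 Fermat.Agent.TW Fermat.Agent.S43

local notation "Qb" => AlgebraicClosure ℚ

section Closed

variable (A : ValuationSubring Qb) {q : ℕ} [hq : Fact q.Prime] (hA : A.LiesOverPrime q)
  (M : ℕ) [NeZero M] [NeZero q] [NeZero (M * q)] (hqM : ¬ q ∣ M) (hq3 : ¬ 3 ∣ q)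
  {m : ℕ} (hm0 : m ≠ 0) (hm6 : Nat.Coprime m 6)

include hA hqM hq3 hm0 hm6

/-- **(Z6) [RES-Hecke]**: `δ (T_ℓ z) = T̃_ℓ (δ z)` on `J₀(M q)[m] ∩ ker ν`, every prime `ℓ ∤ M q`. -/
theorem m59h2_twfq_delta_hecke (ℓ : Nat.Primes) (hℓN : ¬ (ℓ : ℕ) ∣ M * q) {z : JZero (M * q)}
    (hz : m • z = 0) (hν : twfr_nu A M q hq.out hqM m z = 0) :
    twfr_delta A M q m (heckeOperatorBar (M * q) ℓ z) =
      s44k2_TCp (s44e_kA A) M ℓ (twfr_delta A M q m z) :=
  twfq_delta_hecke_of A hA M hqM hm0 ℓ hℓN hz (twfr_fbar_spec' A hA M hqM hm0 hz)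
    (m59h2_twfr_dvd_all A hA M hqM hq3 hm0 hm6 hz hν)

/-- `ν z = 0 ⟹ ν (T_ℓ z) = 0` (at every place). -/
theorem m59h2_twfq_nu_hecke_zero (ℓ : Nat.Primes) (hℓN : ¬ (ℓ : ℕ) ∣ M * q) {z : JZero (M * q)}
    (hz : m • z = 0) (hν : twfr_nu A M q hq.out hqM m z = 0) :
    twfr_nu A M q hq.out hqM m (heckeOperatorBar (M * q) ℓ z) = 0 := by
  funext i
  exact twfq_dvd_hecke_of A hA M hqM hm0 ℓ hℓN (twfr_fbar_spec' A hA M hqM hm0 hz)
    (m59h2_twfr_dvd_all A hA M hqM hq3 hm0 hm6 hz hν) i.1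

/-- `δ` commutes with integer multiples on `J₀(M q)[m] ∩ ker ν`. -/
theorem m59h2_twfq_delta_zsmul {z : JZero (M * q)} (hz : m • z = 0)
    (hν : twfr_nu A M q hq.out hqM m z = 0) (a : ℤ) :
    twfr_nu A M q hq.out hqM m (a • z) = 0 ∧
      twfr_delta A M q m (a • z) = a • twfr_delta A M q m z := by
  have hzero : twfr_nu A M q hq.out hqM m (0 : JZero (M * q)) = 0 ∧
      twfr_delta A M q m (0 : JZero (M * q)) = 0 := by
    have h0 : m • (0 : JZero (M * q)) = 0 := smul_zero _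
    have hν0 : twfr_nu A M q hq.out hqM m (0 : JZero (M * q)) = 0 := by
      have h := twfr_nu_add A hA M hqM hm0 h0 h0
      rw [add_zero] at h
      exact left_eq_add.1 h
    refine ⟨hν0, ?_⟩
    have h := m59h2_twfr_delta_add_of_nu A hA M hqM hq3 hm0 hm6 h0 h0 hν0 hν0
    rw [add_zero] at h
    exact left_eq_add.1 h
  have hnat : ∀ n : ℕ, twfr_nu A M q hq.out hqM m (n • z) = 0 ∧
      twfr_delta A M q m (n • z) = n • twfr_delta A M q m z := by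
    intro n
    induction n with
    | zero => rw [zero_nsmul, zero_nsmul]; exact hzero
    | succ n ih =>
      have hnz : m • (n • z) = 0 := by rw [smul_comm, hz, smul_zero]
      refine ⟨?_, ?_⟩
      · rw [succ_nsmul, twfr_nu_add A hA M hqM hm0 hnz hz, ih.1, hν, add_zero]
      · rw [succ_nsmul, succ_nsmul,
          m59h2_twfr_delta_add_of_nu A hA M hqM hq3 hm0 hm6 hnz hz ih.1 hν, ih.2]
  have hneg : ∀ w : JZero (M * q), m • w = 0 → twfr_nu A M q hq.out hqM m w = 0 →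
      twfr_nu A M q hq.out hqM m (-w) = 0 ∧
        twfr_delta A M q m (-w) = -twfr_delta A M q m w := by
    intro w hw hνw
    have hnw : m • (-w) = 0 := by rw [neg_nsmul, hw, _root_.neg_zero]
    have h1 := twfr_nu_add A hA M hqM hm0 hw hnw
    rw [add_neg_cancel, hzero.1, hνw, zero_add] at h1
    refine ⟨h1.symm, ?_⟩
    have h2 := m59h2_twfr_delta_add_of_nu A hA M hqM hq3 hm0 hm6 hw hnw hνw h1.symm
    rw [add_neg_cancel, hzero.2] at h2
    exact (neg_eq_of_add_eq_zero_right h2.symm).symm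
  obtain ⟨n, rfl | rfl⟩ := a.eq_nat_or_neg
  · rw [natCast_zsmul, natCast_zsmul]
    exact hnat n
  · have hnz : m • (n • z) = 0 := by rw [smul_comm, hz, smul_zero]
    rw [neg_smul, neg_smul, natCast_zsmul, natCast_zsmul]
    obtain ⟨h1, h2⟩ := hneg (n • z) hnz (hnat n).1
    exact ⟨h1, by rw [h2, (hnat n).2]⟩

/-- **eigen-form of (Z6)**: `T_ℓ z = a • z`, `ν z = 0 ⟹ T̃_ℓ (δ z) = a • δ z`. -/
theorem m59h2_twfq_delta_eigen (ℓ : Nat.Primes) (hℓN : ¬ (ℓ : ℕ) ∣ M * q) {z : JZero (M * q)}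
    (hz : m • z = 0) (hν : twfr_nu A M q hq.out hqM m z = 0) (a : ℤ)
    (he : heckeOperatorBar (M * q) ℓ z = a • z) :
    s44k2_TCp (s44e_kA A) M ℓ (twfr_delta A M q m z) = a • twfr_delta A M q m z := by
  rw [← m59h2_twfq_delta_hecke A hA M hqM hq3 hm0 hm6 ℓ hℓN hz hν, he]
  exact (m59h2_twfq_delta_zsmul A hA M hqM hq3 hm0 hm6 hz hν a).2

/-- **(Z6) for `δ₀ = δ ∘ W_q`**. -/
theorem m59h2_twfq_delta0_hecke (ℓ : Nat.Primes) (hℓN : ¬ (ℓ : ℕ) ∣ M * q) {z : JZero (M * q)}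
    (hz : m • z = 0)
    (hν : twfr_nu A M q hq.out hqM m (s44w_WJ M q hq.out hqM z) = 0) :
    twfr_delta A M q m (s44w_WJ M q hq.out hqM (heckeOperatorBar (M * q) ℓ z)) =
      s44k2_TCp (s44e_kA A) M ℓ (twfr_delta A M q m (s44w_WJ M q hq.out hqM z)) := by
  have hWz : m • s44w_WJ M q hq.out hqM z = 0 := by rw [← map_nsmul, hz, map_zero]
  haveI : NeZero (ℓ : ℕ) := ⟨ℓ.2.ne_zero⟩
  have h1 := s44w_WJ_hecke M q (ℓ : ℕ) hq.out hqM ℓ.2 hℓN z m hm0 hz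
  have h2 : (⟨(ℓ : ℕ), ℓ.2⟩ : Nat.Primes) = ℓ := rfl
  rw [h2] at h1
  rw [h1]
  exact m59h2_twfq_delta_hecke A hA M hqM hq3 hm0 hm6 ℓ hℓN hWz hν

/-- **(Z6)**: main's cell Prop `twf_ResHecke_stmt A M hqM m` for a level prime `q ≠ 3`. -/
theorem m59h2_twf_resHecke : twf_ResHecke_stmt A M hqM m :=
  fun ℓ hℓN _ z hz hν => m59h2_twfq_delta_hecke A hA M hqM hq3 hm0 hm6 ℓ hℓN hz hν

end Closed

/-- **(Z6)** for all `(M, q, p, A)`, `p ≥ 5` prime, `p ≠ q`, `3 ∤ q` (twin of `twf_ResHeckeAll_stmt`). -/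
def m59h2_twf_ResHeckeAll_stmt : Prop :=
  ∀ (M q : ℕ) [NeZero M] [NeZero q] [NeZero (M * q)] [hq : Fact q.Prime] (hqM : ¬ q ∣ M) (p : ℕ),
    ¬ 3 ∣ q → p.Prime → 5 ≤ p → p ≠ q → ∀ A : ValuationSubring Qb, A.LiesOverPrime q →
      twf_ResHecke_stmt A M hqM p

/-- **(Z6) is closed for `3 ∤ q`.** -/
theorem m59h2_twf_resHeckeAll : m59h2_twf_ResHeckeAll_stmt := by
  intro M q _ _ _ hq hqM p hq3 hp hp5 hpq A hA
  exact m59h2_twf_resHecke A hA M hqM hq3 hp.ne_zero (twf_coprime_six hp hp5)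

end Fermat.Agent.M59
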