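/-
M59 / box [C] Mazur at `q = 2`, HESSE PORT, cell [DESC-3m] (helper26, on request of the chief #5556 (4)
in the form of referee helper12 ref54 (1)).  Prefix `m59h2k_`.

**Value-group descent with a loss of exponent.**  `twfr_descend` needs the exponent to be prime to
every `0 < d ≤ [K' : K]`; this fails for exponents divisible by `3` along the Hesse cover (degrees
`≤ 4` and `≤ 3`).  Here: if the exponent upstairs is `q * m` and every `0 < d ≤ [K' : K]` is prime to
`q * m` OR divides `q`, then `x ∈ K` which is a `(q * m)`-th power up to a unit in `K'` is an `m`-th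
power up to a unit in `K` (`m59h2k_descend`).  Any valuation subring `R'` (any rank), no Kummer or
ramification theory.

* `m59h2k_descend`     : the abstract lemma;
* `m59h2k_descend_three` : `q = 3`, `[K' : K] ≤ 4`, `m` a power of `3`;
* `m59h2k_tower`       : along the Hesse cover `φ(F) ⊆ φ(F)(μ³) ⊆ E`: exponent `9 * 3 ^ n` upstairs
                         gives exponent `3 ^ n` downstairs (twin of `m59h2_twfr_tower` for the
                         exponents excluded there; `n = 1` is the exponent-`27` device for `m = 3`).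
-/
import Mathlib
import Fermat.Agent.M59.Hesse2.Res.HesOrdAux

set_option autoImplicit false
set_option linter.style.haveILetI false
set_option linter.unusedSectionVars false
set_option linter.unusedVariables false

noncomputable section

namespace Fermat.Agent.M59

open Polynomial Fermat.Agent.S44 Fermat.Agent.TW Fermat.Agent.SS Fermat.Agent.JT3 Fermat.Agent.S35
  IntermediateField Fermat.Agent.SS2

section Abs

variable {K' : Type*} [Field K']

variable {K : Type*} [Field K] [Algebra K K']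

/-- an `R'`-unit has valuation `1`. -/
theorem m59h2k_val_unit (R' : ValuationSubring K') {u' : K'} (hu : u' ∈ R' ∧ u' ∉ R'.nonunits) :
    R'.valuation u' = 1 := by
  have h1 : (R'.valuation u') ≤ 1 := (ValuationSubring.valuation_le_one_iff _ _).2 hu.1
  have h2 : ¬ (R'.valuation u') < 1 := fun h2 =>
    hu.2 ((ValuationSubring.mem_nonunits_iff R').2 h2)
  exact le_antisymm h1 (not_lt.1 h2)

/-- valuation `1` means `R'`-unit. -/
theorem m59h2k_unit_of_val (R' : ValuationSubring K') {u' : K'} (hu : R'.valuation u' = 1) :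
    u' ∈ R' ∧ u' ∉ R'.nonunits := by
  constructor
  · exact (ValuationSubring.valuation_le_one_iff _ _).1 (le_of_eq hu)
  · intro hnu
    have := (ValuationSubring.mem_nonunits_iff R').1 hnu
    rw [hu] at this
    exact lt_irrefl _ this

/-- **value-group descent with a loss of exponent**: if every `0 < d ≤ [K' : K]` is coprime to `q * m`
or divides `q`, a `(q * m)`-th power in `K'` up to an `R'`-unit is an `m`-th power in `K` up to an
`R'`-unit. -/
theorem m59h2k_descend [FiniteDimensional K K'] (R' : ValuationSubring K') {q m : ℕ}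
    (hqm0 : q * m ≠ 0)
    (hdeg : ∀ d : ℕ, 0 < d → d ≤ Module.finrank K K' → Nat.Coprime d (q * m) ∨ d ∣ q)
    {x : K} (hx : x ≠ 0) {y' u' : K'}
    (hu : u' ∈ R' ∧ u' ∉ R'.nonunits) (h : algebraMap K K' x = u' * y' ^ (q * m)) :
    ∃ y : K, y ≠ 0 ∧ (algebraMap K K' x / algebraMap K K' y ^ m ∈ R' ∧
      algebraMap K K' x / algebraMap K K' y ^ m ∉ R'.nonunits) := by
  classical
  set v := R'.valuation with hv
  have hx' : algebraMap K K' x ≠ 0 := by
    rwa [Ne, map_eq_zero]
  have hy'0 : y' ≠ 0 := by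
    rintro rfl
    rw [zero_pow hqm0, mul_zero] at h
    exact hx' h
  have hvu : v u' = 1 := m59h2k_val_unit R' hu
  have hvy0 : v y' ≠ 0 := (v.ne_zero_iff).2 hy'0
  have hvx : v (algebraMap K K' x) = v y' ^ (q * m) := by
    rw [h, map_mul, hvu, one_mul, map_pow]
  -- the minimal polynomial of `y'`
  have hint : IsIntegral K y' := Algebra.IsIntegral.isIntegral y'
  set P := minpoly K y' with hP
  have hP0 : P ≠ 0 := minpoly.ne_zero hint
  have hPdeg : P.natDegree ≤ Module.finrank K K' := minpoly.natDegree_le y'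
  have hroot : ∑ i ∈ P.support, algebraMap K K' (P.coeff i) * y' ^ i = 0 := by
    have h1 : aeval y' P = 0 := minpoly.aeval K y'
    rw [aeval_def, eval₂_eq_sum, Polynomial.sum_def] at h1
    exact h1
  have hne : ∃ i ∈ P.support, algebraMap K K' (P.coeff i) * y' ^ i ≠ 0 := by
    obtain ⟨i, hi⟩ := Finset.nonempty_iff_ne_empty.2 (fun h0 => hP0 (support_eq_empty.1 h0))
    refine ⟨i, hi, mul_ne_zero ?_ (pow_ne_zero _ hy'0)⟩
    rw [Ne, map_eq_zero]
    exact mem_support_iff.1 hi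
  obtain ⟨i, hi, j, hj, hij, hti, htj, hval⟩ :=
    s44rv_two_terms v P.support (fun i => algebraMap K K' (P.coeff i) * y' ^ i) hroot hne
  -- wlog `i < j`: some `c ∈ K` and `0 < d ≤ [K' : K]` with `v c = v y' ^ d`
  have key : ∀ i j : ℕ, i ∈ P.support → j ∈ P.support → i < j →
      v (algebraMap K K' (P.coeff i) * y' ^ i) = v (algebraMap K K' (P.coeff j) * y' ^ j) →
      ∃ y : K, y ≠ 0 ∧ v (algebraMap K K' y) ^ m = v y' ^ (q * m) := by
    intro i j hi hj hlt hval
    have hai : P.coeff i ≠ 0 := mem_support_iff.1 hi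
    have haj : P.coeff j ≠ 0 := mem_support_iff.1 hj
    have hjle : j ≤ P.natDegree := le_natDegree_of_mem_supp j hj
    obtain ⟨d, rfl⟩ : ∃ d, j = i + d := ⟨j - i, by omega⟩
    have hd0 : 0 < d := by omega
    have hdp : d ≤ Module.finrank K K' := by omega
    -- `v(y')^d = v(a_i / a_j)`
    set c : K := P.coeff i / P.coeff (i + d) with hc
    have hc0 : c ≠ 0 := div_ne_zero hai haj
    have hvc : v (algebraMap K K' c) = v y' ^ d := by
      have haj' : v (algebraMap K K' (P.coeff (i + d))) ≠ 0 := by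
        rw [Valuation.ne_zero_iff, Ne, map_eq_zero]
        exact haj
      rw [map_mul, map_mul, map_pow, map_pow, pow_add] at hval
      rw [hc, map_div₀, map_div₀]
      rw [div_eq_iff haj']
      have hvi : v y' ^ i ≠ 0 := pow_ne_zero _ hvy0
      have : v (algebraMap K K' (P.coeff i)) * v y' ^ i =
          v y' ^ d * v (algebraMap K K' (P.coeff (i + d))) * v y' ^ i := by
        rw [hval, mul_comm (v y' ^ d), mul_assoc, mul_comm (v y' ^ d)]
      exact mul_right_cancel₀ hvi this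
    rcases hdeg d hd0 hdp with hcop | hdvd
    · -- Bezout: some `y0 ∈ K` with `v y0 = v y'`, take `y0 ^ q`
      have hcop' : IsCoprime (d : ℤ) ((q * m : ℕ) : ℤ) := by
        rw [Int.isCoprime_iff_gcd_eq_one, Int.gcd_natCast_natCast]
        exact hcop
      obtain ⟨a, b, hab⟩ := hcop'
      have hy0v : v (algebraMap K K' (c ^ a * x ^ b)) = v y' := by
        rw [map_mul, map_zpow₀, map_zpow₀, map_mul, map_zpow₀, map_zpow₀, hvc, hvx,
          ← zpow_natCast, ← zpow_natCast (v y') (q * m), ← zpow_mul, ← zpow_mul,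
          ← zpow_add₀ hvy0]
        have : (d : ℤ) * a + ((q * m : ℕ) : ℤ) * b = 1 := by rw [← hab]; ring
        rw [this, zpow_one]
      refine ⟨(c ^ a * x ^ b) ^ q, pow_ne_zero _ (mul_ne_zero (zpow_ne_zero _ hc0)
        (zpow_ne_zero _ hx)), ?_⟩
      rw [map_pow, map_pow, hy0v, ← pow_mul]
    · -- `d ∣ q`, `q = d * e`: take `c ^ e`
      obtain ⟨e, rfl⟩ := hdvd
      refine ⟨c ^ e, pow_ne_zero _ hc0, ?_⟩
      rw [map_pow, map_pow, hvc, ← pow_mul, ← pow_mul, mul_assoc]
  obtain ⟨y, hy0, hvy⟩ : ∃ y : K, y ≠ 0 ∧ v (algebraMap K K' y) ^ m = v y' ^ (q * m) := by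
    rcases lt_or_gt_of_ne hij with hlt | hlt
    · exact key i j hi hj hlt hval
    · exact key j i hj hi hlt hval.symm
  refine ⟨y, hy0, ?_⟩
  apply m59h2k_unit_of_val
  rw [map_div₀, map_pow]
  show v (algebraMap K K' x) / v (algebraMap K K' y) ^ m = 1
  rw [hvy, hvx, div_self (pow_ne_zero _ hvy0)]

/-- `q = 3`, `[K' : K] ≤ 4`, `m` a power of `3`. -/
theorem m59h2k_descend_three [FiniteDimensional K K'] (R' : ValuationSubring K')
    (hfr : Module.finrank K K' ≤ 4) (n : ℕ)
    {x : K} (hx : x ≠ 0) {y' u' : K'}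
    (hu : u' ∈ R' ∧ u' ∉ R'.nonunits) (h : algebraMap K K' x = u' * y' ^ (3 * 3 ^ n)) :
    ∃ y : K, y ≠ 0 ∧ (algebraMap K K' x / algebraMap K K' y ^ (3 ^ n) ∈ R' ∧
      algebraMap K K' x / algebraMap K K' y ^ (3 ^ n) ∉ R'.nonunits) := by
  refine m59h2k_descend R' (by positivity) ?_ hx hu h
  intro d hd0 hd
  have hd4 : d ≤ 4 := hd.trans hfr
  have h3n : 3 * 3 ^ n = 3 ^ (n + 1) := by ring
  rw [h3n]
  interval_cases d
  · exact Or.inl (Nat.coprime_one_left _)
  · exact Or.inl (Nat.Coprime.pow_right _ (by norm_num))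
  · exact Or.inr dvd_rfl
  · exact Or.inl (Nat.Coprime.pow_right _ (by norm_num))

end Abs

section TowerDescent

variable (L : Type*) [Field L] [CharZero L] (h3 : (3 : L) ≠ 0) (N : ℕ) [NeZero N]

set_option maxHeartbeats 1600000 in
set_option synthInstance.maxHeartbeats 200000 in
/-- **value-group descent along the Hesse cover** `φ(F) ⊆ φ(F)(μ³) ⊆ E` **for powers of `3`**:
exponent `9 * 3 ^ n` upstairs gives exponent `3 ^ n` downstairs. -/
theorem m59h2k_tower (R' : ValuationSubring ↥(hs_E L h3 N)) (n : ℕ)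
    {x : ↥(lg_F L N)} (hx : x ≠ 0) {y' u' : ↥(hs_E L h3 N)} (hu : u' ∈ R' ∧ u' ∉ R'.nonunits)
    (h : hs_phiE h3 (N := N) x = u' * y' ^ (9 * 3 ^ n)) :
    ∃ y : ↥(lg_F L N), y ≠ 0 ∧
      (hs_phiE h3 (N := N) x / hs_phiE h3 (N := N) y ^ (3 ^ n) ∈ R' ∧
        hs_phiE h3 (N := N) x / hs_phiE h3 (N := N) y ^ (3 ^ n) ∉ R'.nonunits) := by
  letI : Algebra ↥(lg_F L N) ↥(hs_E L h3 N) :=
    ((hs_phiE h3 (N := N) : ↥(lg_F L N) →ₐ[L] ↥(hs_E L h3 N)) :
      ↥(lg_F L N) →+* ↥(hs_E L h3 N)).toAlgebra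
  obtain ⟨Kt, hfd1, hfr1, hfd2, hfr2⟩ := m59h2_s44ro_tower_fields L h3 N
  haveI := hfd1
  haveI := hfd2
  -- step 1: descend to `F(s)`, exponent `3 * 3 ^ (n + 1)` to `3 ^ (n + 1)`
  have hxK : algebraMap ↥(lg_F L N) ↥Kt x ≠ 0 := by
    rwa [Ne, map_eq_zero]
  have h9 : 9 * 3 ^ n = 3 * 3 ^ (n + 1) := by ring
  obtain ⟨y1, hy10, hy1, hy1'⟩ := m59h2k_descend_three (K := ↥Kt) (K' := ↥(hs_E L h3 N)) R'
    (hfr2.trans (by norm_num)) (n + 1) hxK hu
    (show algebraMap ↥Kt ↥(hs_E L h3 N)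
      (algebraMap ↥(lg_F L N) ↥Kt x) = u' * y' ^ (3 * 3 ^ (n + 1)) from h9 ▸ h)
  -- step 2: descend to `F`, exponent `3 * 3 ^ n` to `3 ^ n`
  set R1 : ValuationSubring ↥Kt := R'.comap (algebraMap ↥Kt ↥(hs_E L h3 N)) with hR1
  set u1 : ↥Kt := algebraMap ↥(lg_F L N) ↥Kt x / y1 ^ (3 ^ (n + 1)) with hu1
  have hu1R : u1 ∈ R1 ∧ u1 ∉ R1.nonunits := by
    have e : algebraMap ↥Kt ↥(hs_E L h3 N) u1 =
        algebraMap ↥Kt ↥(hs_E L h3 N) (algebraMap ↥(lg_F L N) ↥Kt x) /
          algebraMap ↥Kt ↥(hs_E L h3 N) y1 ^ (3 ^ (n + 1)) := by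
      rw [hu1, map_div₀, map_pow]
    refine ⟨?_, ?_⟩
    · show algebraMap ↥Kt ↥(hs_E L h3 N) u1 ∈ R'
      rw [e]; exact hy1
    · intro hnu
      apply hy1'
      rw [← e]
      rw [ValuationSubring.mem_nonunits_iff_or] at hnu ⊢
      rcases hnu with h0 | h0
      · left; rw [h0, map_zero]
      · right
        intro h1
        apply h0
        show algebraMap ↥Kt ↥(hs_E L h3 N) u1⁻¹ ∈ R'
        rw [map_inv₀]; exact h1
  have hx1 : algebraMap ↥(lg_F L N) ↥Kt x = u1 * y1 ^ (3 * 3 ^ n) := by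
    have e3 : 3 * 3 ^ n = 3 ^ (n + 1) := by ring
    rw [e3, hu1, div_mul_cancel₀ _ (pow_ne_zero _ hy10)]
  obtain ⟨y, hy0, hy, hy'⟩ := m59h2k_descend_three (K := ↥(lg_F L N)) (K' := ↥Kt) R1
    hfr1 n hx hu1R hx1
  refine ⟨y, hy0, ?_, ?_⟩
  · have : algebraMap ↥Kt ↥(hs_E L h3 N)
        (algebraMap ↥(lg_F L N) ↥Kt x / algebraMap ↥(lg_F L N) ↥Kt y ^ (3 ^ n)) ∈ R' := hy
    rw [map_div₀, map_pow] at this
    exact this
  · intro hnu
    apply hy'
    rw [ValuationSubring.mem_nonunits_iff_or] at hnu ⊢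
    rcases hnu with h0 | h0
    · left
      have : algebraMap ↥Kt ↥(hs_E L h3 N)
          (algebraMap ↥(lg_F L N) ↥Kt x / algebraMap ↥(lg_F L N) ↥Kt y ^ (3 ^ n)) = 0 := by
        rw [map_div₀, map_pow]; exact h0
      exact (map_eq_zero _).1 this
    · right
      intro h1
      apply h0
      have : algebraMap ↥Kt ↥(hs_E L h3 N)
          (algebraMap ↥(lg_F L N) ↥Kt x / algebraMap ↥(lg_F L N) ↥Kt y ^ (3 ^ n))⁻¹ ∈ R' := h1
      rw [map_inv₀, map_div₀, map_pow] at this
      exact this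

end TowerDescent

end Fermat.Agent.M59
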